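import Fermat.Agent.S48.Z.Y

/-!
# S48 / Z-E : the Eisenstein series `E_ψ`        [key S48/Z-E, ~350 lines]

`ψ` an odd Dirichlet character mod `M` (`ψ (-1) = -1`; so `M ≥ 3`: in `ZMod 1`, `ZMod 2` one has `-1 = 1` and `ψ 1 = 1 ≠ -1`; in particular `ψ 0 = 0`, `MulChar.map_nonunit`/`map_zero`).
`Epsi ψ = (1/(2M)) ∑_{a < M} ψ(a) Y_a` (the term `a = 0` is `0 * junk`).
* `sum_psi`: `∑_{a<M} ψ a = 0`: the substitution `a ↦ -a` gives `S = -S` (work on `ZMod M`: `∑_{a ∈ range M} f (a : ZMod M) = ∑_{x : ZMod M} f x`; `Equiv.neg`), or `DirichletCharacter.sum_eq_zero_of_ne_one`/`MulChar.sum_eq_zero_of_ne_one`.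
* `sum_psi_hh`: for `d : ℕ`: `∑_{a<M} ψ a * hh M a d = 2 ψ d`:  `[M ∣ d - a]` selects `a ≡ d`, `[M ∣ d + a]` selects `a ≡ -d`, `ψ(-d) = -ψ d`.  (Again on `ZMod M`: `Finset.sum_ite_eq`.)
* `hasSum_Epsi`: `hasSum_sum` of `(hasSum_Yf ha τ).mul_left (ψ a)` over `a ∈ range M`, `a ≠ 0` (for `a = 0` use `ψ 0 = 0`: both sides `0`), times `1/(2M)`.  Coefficients:
  `n = 0`: `(1/(2M)) ∑ ψ a (M/2 - a % M) = (1/(2M)) (0 - ∑ a ψ a)` (`a % M = a` for `a < M`);   `n ≥ 1`: `(1/(2M)) ∑_a ψ a * M * ∑_{d ∣ n} hh M a d = ∑_{d ∣ n} ψ d`.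
* `Epsi_slash`: `γ ∈ Γ₀(M)`, `α = γ 0 0`, `δ = γ 1 1`, `α δ ≡ 1`.  `Epsi ψ ∣[1] γ = (1/(2M)) ∑_a ψ a Y_{a α}` (`Yf_slash`; `SL_smul_slash`, sums).  `G : ZMod M → (ℍ → ℂ)`, `G x = ψ x • Yf M x.val`; `ψ a • Y_{aα} = ψ δ • G (a α)`
  (`ψ(a) = ψ(a α) ψ(δ)`, `Yf_congr`); `x ↦ x α` is a bijection of `ZMod M`.
* `isNeb_Epsi`: `isQ := isQ_of_hasSum hasSum_Epsi`, `slash := Epsi_slash`, `bdd g`: finite linear combination of `bdd_Yf_slash`.
* `exists_Epsi'` = the exact statement of `S48/IF/Z.lean` (I do the final wiring there).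
-/

set_option autoImplicit false

open UpperHalfPlane hiding I
open Complex ModularForm CongruenceSubgroup Matrix Fermat.Agent.S24 Fermat.Agent.S29
open scoped Real Topology MatrixGroups Manifold

noncomputable section

namespace Fermat.Agent.S48.Z

local notation "𝕢" => Function.Periodic.qParam

variable {M : ℕ} [NeZero M]

/-- `E_ψ` -/
def Epsi (ψ : DirichletCharacter ℂ M) (τ : ℍ) : ℂ :=
  (1 / (2 * (M : ℂ))) * ∑ a ∈ Finset.range M, ψ (a : ZMod M) * Yf M (a : ℤ) τ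

/-- the coefficients of `E_ψ` -/
def ec (ψ : DirichletCharacter ℂ M) (n : ℕ) : ℂ :=
  if n = 0 then -(∑ a ∈ Finset.range M, (a : ℂ) * ψ (a : ZMod M)) / (2 * (M : ℂ))
  else ∑ d ∈ n.divisors, ψ (d : ZMod M)

variable (ψ : DirichletCharacter ℂ M) (hψ : ψ (-1) = -1)

include hψ

theorem psi_zero : ψ 0 = 0 := by
  have : Nontrivial (ZMod M) := by
    by_contra h
    rw [not_nontrivial_iff_subsingleton] at h
    have h1 : (-1 : ZMod M) = 1 := Subsingleton.elim _ _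
    rw [h1, map_one] at hψ
    norm_num at hψ
  exact MulChar.map_zero ψ

theorem eAux_psi_neg (x : ZMod M) : ψ (-x) = - ψ x := by
  rw [← neg_one_mul, map_mul, hψ, neg_one_mul]

theorem eAux_psi_of_dvd {a : ℤ} (h : (M : ℤ) ∣ a) : ψ (a : ZMod M) = 0 := by
  rw [(ZMod.intCast_zmod_eq_zero_iff_dvd _ _).2 h, psi_zero ψ hψ]

theorem sum_psi : ∑ a ∈ Finset.range M, ψ (a : ZMod M) = 0 := by
  rw [yaAux_sum_range M (fun x => ψ x)]
  refine MulChar.sum_eq_zero_of_ne_one fun h => ?_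
  rw [h, MulChar.one_apply (isUnit_one.neg)] at hψ
  norm_num at hψ

theorem sum_psi_hh (d : ℕ) :
    ∑ a ∈ Finset.range M, ψ (a : ZMod M) * (hh M (a : ℤ) d : ℂ) = 2 * ψ (d : ZMod M) := by
  classical
  have h1 : ∀ a : ℕ, ψ (a : ZMod M) * (hh M (a : ℤ) d : ℂ) =
      (fun x : ZMod M => ψ x * ((if (d : ZMod M) = x then 1 else 0) -
        (if -(d : ZMod M) = x then 1 else 0))) (a : ZMod M) := by
    intro a
    have e1 : ((M : ℤ) ∣ (d : ℤ) - (a : ℤ)) ↔ (d : ZMod M) = (a : ZMod M) := by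
      rw [← ZMod.intCast_zmod_eq_zero_iff_dvd]
      push_cast
      rw [sub_eq_zero]
    have e2 : ((M : ℤ) ∣ (d : ℤ) + (a : ℤ)) ↔ -(d : ZMod M) = (a : ZMod M) := by
      rw [← ZMod.intCast_zmod_eq_zero_iff_dvd]
      push_cast
      rw [neg_eq_iff_add_eq_zero]
    simp only [hh, e1, e2]
    push_cast
    rfl
  rw [Finset.sum_congr rfl fun a _ => h1 a, yaAux_sum_range M (fun x : ZMod M => ψ x *
    ((if (d : ZMod M) = x then 1 else 0) - (if -(d : ZMod M) = x then 1 else 0)))]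
  simp only [mul_sub, Finset.sum_sub_distrib, mul_ite, mul_one, mul_zero, Finset.sum_ite_eq,
    Finset.mem_univ, if_true]
  rw [eAux_psi_neg ψ hψ]
  ring

theorem eAux_coeff (n : ℕ) :
    (1 / (2 * (M : ℂ))) * ∑ a ∈ Finset.range M, ψ (a : ZMod M) * yc M (a : ℤ) n = ec ψ n := by
  have hMC : (M : ℂ) ≠ 0 := Nat.cast_ne_zero.2 (NeZero.ne M)
  rcases Nat.eq_zero_or_pos n with rfl | hn
  · have h1 : ∀ a ∈ Finset.range M, ψ (a : ZMod M) * yc M (a : ℤ) 0 =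
        (M : ℂ) / 2 * ψ (a : ZMod M) - (a : ℂ) * ψ (a : ZMod M) := by
      intro a ha
      have h2 : (a : ℤ) % (M : ℤ) = a :=
        Int.emod_eq_of_lt (Int.natCast_nonneg a) (by exact_mod_cast Finset.mem_range.1 ha)
      rw [yc, if_pos rfl, h2]
      push_cast
      ring
    rw [Finset.sum_congr rfl h1, Finset.sum_sub_distrib, ← Finset.mul_sum, sum_psi ψ hψ, ec,
      if_pos rfl]
    ring
  · have h1 : ∀ a ∈ Finset.range M, ψ (a : ZMod M) * yc M (a : ℤ) n =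
        (M : ℂ) * ∑ d ∈ n.divisors, ψ (a : ZMod M) * (hh M (a : ℤ) d : ℂ) := by
      intro a _
      rw [yc, if_neg hn.ne']
      push_cast
      rw [Finset.mul_sum, Finset.mul_sum, Finset.mul_sum]
      exact Finset.sum_congr rfl fun d _ => by ring
    rw [Finset.sum_congr rfl h1, ← Finset.mul_sum, Finset.sum_comm]
    simp only [sum_psi_hh ψ hψ]
    rw [← Finset.mul_sum, ec, if_neg hn.ne']
    field_simp

theorem hasSum_Epsi (τ : ℍ) :
    HasSum (fun n : ℕ => ec ψ n • 𝕢 (1 : ℝ) (τ : ℂ) ^ n) (Epsi ψ τ) := by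
  have h1 : ∀ a ∈ Finset.range M, HasSum
      (fun n : ℕ => (ψ (a : ZMod M) * yc M (a : ℤ) n) • 𝕢 (1 : ℝ) (τ : ℂ) ^ n)
      (ψ (a : ZMod M) * Yf M (a : ℤ) τ) := by
    intro a _
    by_cases ha : (M : ℤ) ∣ (a : ℤ)
    · have h0 : ψ (a : ZMod M) = 0 := by
        have := eAux_psi_of_dvd ψ hψ ha
        rwa [Int.cast_natCast] at this
      simp only [h0, zero_mul, zero_smul]
      exact hasSum_zero
    · have := (hasSum_Yf ha τ).mul_left (ψ (a : ZMod M))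
      simpa only [smul_eq_mul, mul_assoc] using this
  have h2 := (hasSum_sum h1).mul_left (1 / (2 * (M : ℂ)))
  simp only [← Finset.sum_smul] at h2
  have h3 : (fun n : ℕ => ec ψ n • 𝕢 (1 : ℝ) (τ : ℂ) ^ n) = fun i : ℕ => 1 / (2 * (M : ℂ)) *
      (∑ a ∈ Finset.range M, ψ (a : ZMod M) * yc M (a : ℤ) i) • 𝕢 (1 : ℝ) (τ : ℂ) ^ i := by
    funext n
    rw [← eAux_coeff ψ hψ n, smul_eq_mul, smul_eq_mul, mul_assoc]
  rw [h3]
  exact h2

omit hψ in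
theorem eAux_slash_apply (g : SL(2, ℤ)) (τ : ℍ) : (Epsi ψ ∣[(1 : ℤ)] g) τ =
    (1 / (2 * (M : ℂ))) * ∑ a ∈ Finset.range M, ψ (a : ZMod M) * (Yf M (a : ℤ) ∣[(1 : ℤ)] g) τ := by
  rw [SL_slash_apply]
  unfold Epsi
  rw [mul_assoc, Finset.sum_mul]
  congr 1
  refine Finset.sum_congr rfl fun a _ => ?_
  rw [SL_slash_apply, mul_assoc]

theorem Epsi_slash (γ : SL(2, ℤ)) (hγ : γ ∈ Gamma0 M) :
    Epsi ψ ∣[(1 : ℤ)] γ = etaOf ψ (γ 1 1) • Epsi ψ := by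
  have hc : (M : ℤ) ∣ γ 1 0 := by
    rw [Gamma0_mem] at hγ
    exact (ZMod.intCast_zmod_eq_zero_iff_dvd _ _).1 hγ
  have hdet : γ 0 0 * γ 1 1 - γ 0 1 * γ 1 0 = 1 := by
    have := γ.2
    rwa [Matrix.det_fin_two] at this
  have hαδ : ((γ 0 0 : ℤ) : ZMod M) * ((γ 1 1 : ℤ) : ZMod M) = 1 := by
    have h1 : ((γ 0 0 * γ 1 1 - γ 0 1 * γ 1 0 : ℤ) : ZMod M) = 1 := by rw [hdet]; simp
    push_cast at h1
    rwa [(ZMod.intCast_zmod_eq_zero_iff_dvd _ _).2 hc, mul_zero, sub_zero] at h1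
  have hα : IsUnit ((γ 0 0 : ℤ) : ZMod M) := IsUnit.of_mul_eq_one _ hαδ
  funext τ
  rw [eAux_slash_apply, Pi.smul_apply, smul_eq_mul]
  unfold Epsi etaOf
  rw [mul_left_comm]
  congr 1
  let Gf : ZMod M → ℂ := fun x => ψ x * Yf M ((x.val : ℕ) : ℤ) τ
  have h1 : ∀ a : ℕ, ψ (a : ZMod M) * (Yf M (a : ℤ) ∣[(1 : ℤ)] γ) τ =
      ψ ((γ 1 1 : ℤ) : ZMod M) * Gf ((a : ZMod M) * ((γ 0 0 : ℤ) : ZMod M)) := by
    intro a
    have e1 : ψ (a : ZMod M) =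
        ψ ((γ 1 1 : ℤ) : ZMod M) * ψ ((a : ZMod M) * ((γ 0 0 : ℤ) : ZMod M)) := by
      rw [← map_mul, mul_comm, mul_assoc, hαδ, mul_one]
    by_cases ha : (M : ℤ) ∣ (a : ℤ)
    · have h0 : (a : ZMod M) = 0 := by
        have := (ZMod.intCast_zmod_eq_zero_iff_dvd _ _).2 ha
        rwa [Int.cast_natCast] at this
      simp only [Gf, h0, zero_mul, psi_zero ψ hψ, mul_zero]
    · rw [Yf_slash ha γ hγ]
      simp only [Gf]
      rw [← mul_assoc, ← e1]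
      congr 1
      have ha' : ¬ (M : ℤ) ∣ (a : ℤ) * γ 0 0 := by
        intro h
        apply ha
        rw [← ZMod.intCast_zmod_eq_zero_iff_dvd] at h ⊢
        push_cast at h ⊢
        exact (hα.mul_left_eq_zero).1 h
      refine congrFun (Yf_congr ?_ ha') τ
      rw [← ZMod.intCast_eq_intCast_iff_dvd_sub]
      simp
  have h2 : ∀ a ∈ Finset.range M, ψ (a : ZMod M) * Yf M (a : ℤ) τ = Gf (a : ZMod M) := by
    intro a ha
    simp only [Gf]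
    rw [ZMod.val_natCast_of_lt (Finset.mem_range.1 ha)]
  simp only [h1]
  rw [Finset.sum_congr rfl h2, ← Finset.mul_sum,
    yaAux_sum_range M (fun x => Gf (x * ((γ 0 0 : ℤ) : ZMod M))), yaAux_sum_range M Gf]
  congr 1
  refine Function.Bijective.sum_comp (Finite.injective_iff_bijective.1 ?_) Gf
  intro x y hxy
  exact hα.mul_right_cancel hxy

theorem isNeb_Epsi : IsNeb M 1 (etaOf ψ) (Epsi ψ) where
  isQ := isQ_of_hasSum (hasSum_Epsi ψ hψ)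
  slash := Epsi_slash ψ hψ
  bdd g := by
    have h1 : Epsi ψ ∣[(1 : ℤ)] g = (fun _ : ℍ => (1 / (2 * (M : ℂ)))) *
        ∑ a ∈ Finset.range M, (fun _ : ℍ => ψ (a : ZMod M)) * (Yf M (a : ℤ) ∣[(1 : ℤ)] g) := by
      funext τ
      rw [eAux_slash_apply, Pi.mul_apply, Finset.sum_apply]
      rfl
    rw [h1]
    refine (Filter.const_boundedAtFilter _ _).mul (yaAux_bdd_sum _ _ fun a _ => ?_)
    by_cases ha : (M : ℤ) ∣ (a : ℤ)
    · have h0 : ψ (a : ZMod M) = 0 := by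
        have := eAux_psi_of_dvd ψ hψ ha
        rwa [Int.cast_natCast] at this
      have h3 : (fun _ : ℍ => ψ (a : ZMod M)) * (Yf M (a : ℤ) ∣[(1 : ℤ)] g) = fun _ => (0 : ℂ) := by
        funext τ
        rw [Pi.mul_apply, h0, zero_mul]
      rw [h3]
      exact Filter.const_boundedAtFilter _ _
    · exact (Filter.const_boundedAtFilter _ _).mul (bdd_Yf_slash ha g)

theorem exists_Epsi' :
    ∃ E : ℍ → ℂ, IsNeb M 1 (etaOf ψ) E ∧
      (2 * M : ℂ) * coeffFun E 0 = - ∑ a ∈ Finset.range M, (a : ℂ) * ψ (a : ZMod M) ∧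
      ∀ n : ℕ, 0 < n → coeffFun E n = ∑ d ∈ n.divisors, ψ (d : ZMod M) := by
  have hMC : (M : ℂ) ≠ 0 := Nat.cast_ne_zero.2 (NeZero.ne M)
  refine ⟨Epsi ψ, isNeb_Epsi ψ hψ, ?_, fun n hn => ?_⟩
  · rw [coeffFun_of_hasSum (hasSum_Epsi ψ hψ), ec, if_pos rfl]
    field_simp
  · rw [coeffFun_of_hasSum (hasSum_Epsi ψ hψ), ec, if_neg hn.ne']

end Fermat.Agent.S48.Z
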