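import Fermat.Agent.S48.Z.Sum

/-!
# S48 / Z-LAT : lattice invariance and the slash law        [key S48/Z-LAT, ~250 lines, MATHLIB ONLY]

`γ = [[a,b],[c,d]] ∈ SL(2,ℤ)`, `j = denom γ τ = cτ + d`.
* `L_smul`: `w 0 * (γ•τ) + w 1 = ((w ᵥ* γ) 0 * τ + (w ᵥ* γ) 1)/j`.  (`UpperHalfPlane.specialLinearGroup_apply` / `coe_smul`, `num`, `denom`;
  compare the proof of `EisensteinSeries.eisSummand_SL2_apply`; or deduce it from that lemma with `k = -1`... direct computation is easier: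
  `γ•τ = (aτ+b)/(cτ+d)`, `(w ᵥ* γ) 0 = w 0 * a + w 1 * c`, `(w ᵥ* γ) 1 = w 0 * b + w 1 * d` (`Matrix.vecMul`, `Fin.sum_univ_two`).)
* `zetaTerm_smul`: termwise, `zetaTerm (z/j) (γ•τ) w = j * zetaTerm z τ (w ᵥ* γ)` (true also when denominators vanish: `1/(x/j) = j/x`, `(z/j)/(x/j)² = j z/x²`; `j ≠ 0`).
* `zetaW_smul`: `w ↦ w ᵥ* γ` is a bijection of `Fin 2 → ℤ` (inverse `w ↦ w ᵥ* γ⁻¹`; e.g. `Matrix.vecMul_vecMul`, `γ * γ⁻¹ = 1`; Mathlib uses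
  `(Matrix.SpecialLinearGroup.toLin' ..)`/`gammaSetEquiv`; simplest: build an `Equiv` by hand) ; `Equiv.tsum_eq`, `tsum_mul_left`.
* `EE_smul`: Mathlib `EisensteinSeries.G2_slash_action γ : G2 ∣[2] γ = G2 - D2 γ`, `D2 γ τ = 2πi c / j`, `ModularForm.SL_slash_apply`:
  `G2 (γ•τ) = j² G2 τ - 2πi c j`.  So `EE (z/j) (γ•τ) = j ζ_W(z) - (z/j)(j² G2 - 2πi c j) = j EE z τ + 2πi c z`.
* `zpt_smul`: `zpt M v (γ•τ) = zpt M (v ᵥ* γ) τ / j`.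
* `Zf_smul`: with `z = zpt M (v ᵥ* γ) τ`:  `Zf M v (γ•τ) = -(j EE z τ + 2πi c z)/(2πi) - v0/M = j (-(EE z τ)/(2πi)) - (c z + v0/M)` and
  `c z + v0/M = j (v ᵥ* γ) 0 / M`, because `c((v0 a + v1 c)τ + v0 b + v1 d) + v0 = (cτ+d)(v0 a + v1 c)` by `a d - b c = 1` (`Matrix.det_fin_two`, `γ.2`).
* `Zf_slash`: `ModularForm.SL_slash_apply`, `zpow_neg_one`.
-/

set_option autoImplicit false

open UpperHalfPlane hiding I
open Complex EisensteinSeries ModularForm Filter Matrix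
open scoped Real Topology MatrixGroups

noncomputable section

namespace Fermat.Agent.S48.Z

theorem L_smul (γ : SL(2, ℤ)) (τ : ℍ) (w : Fin 2 → ℤ) :
    L (γ • τ) w = L τ (w ᵥ* (γ : Matrix (Fin 2) (Fin 2) ℤ)) / denom γ τ := by
  have h := eisSummand_SL2_apply (-1) w γ τ
  simp only [eisSummand, neg_neg, zpow_one, _root_.zpow_neg] at h
  rw [L, L, h]
  field_simp

theorem zetaTerm_smul (γ : SL(2, ℤ)) (z : ℂ) (τ : ℍ) (w : Fin 2 → ℤ) :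
    zetaTerm (z / denom γ τ) (γ • τ) w =
      denom γ τ * zetaTerm z τ (w ᵥ* (γ : Matrix (Fin 2) (Fin 2) ℤ)) := by
  have hj : (denom γ τ : ℂ) ≠ 0 := denom_ne_zero γ τ
  rw [zetaTerm, zetaTerm, L_smul]
  set x := L τ (w ᵥ* (γ : Matrix (Fin 2) (Fin 2) ℤ))
  set j := denom γ τ
  rw [← add_div, one_div_div, one_div_div, div_pow, div_div_div_eq]
  by_cases hx : x = 0
  · simp [hx]; ring
  · by_cases hzx : z + x = 0
    · simp [hzx]; field_simp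
    · field_simp

/-- `w ↦ w ᵥ* γ` -/
def vecMulEquiv (γ : SL(2, ℤ)) : (Fin 2 → ℤ) ≃ (Fin 2 → ℤ) where
  toFun v := v ᵥ* (γ : Matrix (Fin 2) (Fin 2) ℤ)
  invFun v := v ᵥ* ((γ⁻¹ : SL(2, ℤ)) : Matrix (Fin 2) (Fin 2) ℤ)
  left_inv v := by
    show (v ᵥ* (γ : Matrix (Fin 2) (Fin 2) ℤ)) ᵥ* ((γ⁻¹ : SL(2, ℤ)) : Matrix (Fin 2) (Fin 2) ℤ) = v
    have h : (γ : Matrix (Fin 2) (Fin 2) ℤ) * ((γ⁻¹ : SL(2, ℤ)) : Matrix (Fin 2) (Fin 2) ℤ) = 1 :=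
      congrArg Subtype.val (mul_inv_cancel γ)
    rw [vecMul_vecMul, h, vecMul_one]
  right_inv v := by
    show (v ᵥ* ((γ⁻¹ : SL(2, ℤ)) : Matrix (Fin 2) (Fin 2) ℤ)) ᵥ* (γ : Matrix (Fin 2) (Fin 2) ℤ) = v
    have h : ((γ⁻¹ : SL(2, ℤ)) : Matrix (Fin 2) (Fin 2) ℤ) * (γ : Matrix (Fin 2) (Fin 2) ℤ) = 1 :=
      congrArg Subtype.val (inv_mul_cancel γ)
    rw [vecMul_vecMul, h, vecMul_one]

theorem zetaW_smul (γ : SL(2, ℤ)) (z : ℂ) (τ : ℍ) :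
    zetaW (z / denom γ τ) (γ • τ) = denom γ τ * zetaW z τ := by
  rw [zetaW, zetaW, ← tsum_mul_left]
  simp_rw [zetaTerm_smul]
  exact (vecMulEquiv γ).tsum_eq (fun w => denom γ τ * zetaTerm z τ w)

theorem G2_smul (γ : SL(2, ℤ)) (τ : ℍ) :
    G2 (γ • τ) = denom γ τ ^ 2 * G2 τ - 2 * π * I * (γ 1 0 : ℤ) * denom γ τ := by
  have hj : (denom γ τ : ℂ) ≠ 0 := denom_ne_zero γ τ
  have h := congrFun (G2_slash_action γ) τ
  rw [SL_slash_apply] at h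
  simp only [Pi.sub_apply, D2] at h
  rw [_root_.zpow_neg, zpow_ofNat] at h
  field_simp at h
  linear_combination h

theorem EE_smul (γ : SL(2, ℤ)) (z : ℂ) (τ : ℍ) :
    EE (z / denom γ τ) (γ • τ) = denom γ τ * EE z τ + 2 * π * I * (γ 1 0 : ℤ) * z := by
  have hj : (denom γ τ : ℂ) ≠ 0 := denom_ne_zero γ τ
  rw [EE, EE, zetaW_smul, G2_smul]
  field_simp
  ring

theorem zpt_smul (M : ℕ) (v : Fin 2 → ℤ) (γ : SL(2, ℤ)) (τ : ℍ) :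
    zpt M v (γ • τ) = zpt M (v ᵥ* (γ : Matrix (Fin 2) (Fin 2) ℤ)) τ / denom γ τ := by
  rw [zpt, zpt, L_smul]
  ring

theorem Zf_smul (M : ℕ) [NeZero M] (v : Fin 2 → ℤ) (γ : SL(2, ℤ)) (τ : ℍ) :
    Zf M v (γ • τ) = denom γ τ * Zf M (v ᵥ* (γ : Matrix (Fin 2) (Fin 2) ℤ)) τ := by
  have hM : (M : ℂ) ≠ 0 := by exact_mod_cast NeZero.ne M
  have hpi : (2 * π * I : ℂ) ≠ 0 := by
    simp [Real.pi_ne_zero, I_ne_zero]
  rw [Zf, Zf, zpt_smul, EE_smul]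
  have hdet : (γ 0 0 : ℂ) * γ 1 1 - (γ 0 1 : ℂ) * γ 1 0 = 1 := by
    have := γ.2
    rw [Matrix.det_fin_two] at this
    exact_mod_cast this
  have hd : (denom γ τ : ℂ) = (γ 1 0 : ℤ) * τ + (γ 1 1 : ℤ) := by
    simp [denom]
  have e0 : ((v ᵥ* (γ : Matrix (Fin 2) (Fin 2) ℤ)) 0 : ℤ) = v 0 * γ 0 0 + v 1 * γ 1 0 := by
    simp [vecMul, vec2_dotProduct]
  have e1 : ((v ᵥ* (γ : Matrix (Fin 2) (Fin 2) ℤ)) 1 : ℤ) = v 0 * γ 0 1 + v 1 * γ 1 1 := by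
    simp [vecMul, vec2_dotProduct]
  have key : ((γ 1 0 : ℤ) : ℂ) * zpt M (v ᵥ* (γ : Matrix (Fin 2) (Fin 2) ℤ)) τ + (v 0 : ℂ) / M =
      denom γ τ * (((v ᵥ* (γ : Matrix (Fin 2) (Fin 2) ℤ)) 0 : ℤ) : ℂ) / M := by
    rw [zpt, L, e0, e1, hd]
    push_cast
    field_simp
    linear_combination (-(v 0 : ℂ)) * hdet
  field_simp
  field_simp at key
  linear_combination (-(2 * π * I : ℂ)) * key

theorem Zf_slash (M : ℕ) [NeZero M] (v : Fin 2 → ℤ) (γ : SL(2, ℤ)) :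
    Zf M v ∣[(1 : ℤ)] γ = Zf M (v ᵥ* (γ : Matrix (Fin 2) (Fin 2) ℤ)) := by
  ext τ
  have hj : (denom γ τ : ℂ) ≠ 0 := denom_ne_zero γ τ
  rw [SL_slash_apply, Zf_smul, _root_.zpow_neg, zpow_one]
  field_simp

end Fermat.Agent.S48.Z
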