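import Mathlib

/-!
# S48 / Z-LAMB : Lambert series rearrangement + holomorphy from a `q`-expansion    [key S48/Z-LAMB, ~250 lines, MATHLIB ONLY, no project context]

* `summable_lambert`, `hasSum_lambert`: `c : ℕ → ℕ → ℂ` bounded by `C`, `‖x‖ < 1`.  `(d,k) ↦ c d k x^(dk)` is summable on `ℕ+ × ℕ+`: compare with Mathlib
  `summable_prod_mul_pow 0 hx : Summable fun c : ℕ+ × ℕ+ ↦ c.2^0 * x^(c.1*c.2)` (take norms: `Summable.of_norm_bounded`, applied to `‖x‖`, i.e. `r := (‖x‖ : ℝ)` or `𝕜 = ℂ` and `.norm`).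
  Rearrangement: `sigmaAntidiagonalEquivProd : (Σ n : ℕ+, Nat.divisorsAntidiagonal n) ≃ ℕ+ × ℕ+`; copy the proof of `tsum_prod_pow_eq_tsum_sigma`
  (`Mathlib/NumberTheory/TsumDivisorsAntidiagonal.lean`): `HasSum` over the sigma type (`Equiv.hasSum_iff`), `HasSum.sigma` with the finite fibres (`hasSum_fintype`),
  `Nat.sum_divisorsAntidiagonal (fun d k => ..)` turns the fibre sum into `∑ d ∈ n.divisors, c d (n/d) x^n` (`d * (n/d) = n`).
  Finally pass from `ℕ+` to `ℕ` with value `0` at `n = 0` (`hasSum_nat_add_iff' 1`/`Equiv.pnatEquivNat`, `tsum_pnat_eq_tsum_succ`, or `Function.Injective.hasSum_iff PNat.coe_injective`).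
* `mdiff_of_hasSum`: Mathlib (`Mathlib/NumberTheory/ModularForms/QExpansion.lean`) proves inside `isBoundedAtImInfty_of_hasSum_qExpansion`:
  `f = fun τ ↦ update (cuspFunction h f) 0 (c 0) (𝕢 h τ)` and `hasFPowerSeriesOnBall_update hh hf : HasFPowerSeriesOnBall (update (cuspFunction h f) 0 (c 0)) (.ofScalars ℂ c) 0 1`.
  So `g := update ..` is differentiable on the unit ball (`HasFPowerSeriesOnBall.differentiableOn`), `𝕢 h` is entire with values in the ball on `ℍ`
  (`Function.Periodic.norm_qParam_lt_one`).  `UpperHalfPlane.mdifferentiable_iff : MDiff f ↔ DifferentiableOn ℂ (f ∘ ofComplex) {z | 0 < z.im}`; `ofComplex_apply_of_im_pos`.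
* `periodic_of_hasSum`: `𝕢 1 (z+1) = 𝕢 1 z`; for `z.im ≤ 0`, `ofComplex_apply_of_im_nonpos` on both sides (copy `Fermat/Agent/S28/Rel.lean`, `isQ_qq`).
-/

set_option autoImplicit false

open UpperHalfPlane hiding I
open Complex Filter Function
open scoped Real Topology Manifold

noncomputable section

namespace Fermat.Agent.S48.Z

local notation "𝕢" => Function.Periodic.qParam

theorem summable_lambert (c : ℕ → ℕ → ℂ) (C : ℝ) (hc : ∀ d k, ‖c d k‖ ≤ C) {x : ℂ} (hx : ‖x‖ < 1) :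
    Summable (fun p : ℕ+ × ℕ+ => c p.1 p.2 * x ^ ((p.1 : ℕ) * (p.2 : ℕ))) := by
  have h := ((summable_prod_mul_pow (𝕜 := ℂ) 0 hx).norm).mul_left C
  refine Summable.of_norm_bounded h fun p => ?_
  rw [norm_mul, pow_zero, one_mul]
  exact mul_le_mul_of_nonneg_right (hc _ _) (norm_nonneg _)

theorem hasSum_lambert (c : ℕ → ℕ → ℂ) (C : ℝ) (hc : ∀ d k, ‖c d k‖ ≤ C) {x : ℂ} (hx : ‖x‖ < 1) :
    HasSum (fun n : ℕ => (if n = 0 then 0 else ∑ d ∈ n.divisors, c d (n / d)) * x ^ n)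
      (∑' p : ℕ+ × ℕ+, c p.1 p.2 * x ^ ((p.1 : ℕ) * (p.2 : ℕ))) := by
  have h1 := (summable_lambert c C hc hx).hasSum
  rw [← sigmaAntidiagonalEquivProd.hasSum_iff] at h1
  have h2 := h1.sigma (g := fun n : ℕ+ => (∑ d ∈ (n : ℕ).divisors, c d ((n : ℕ) / d)) * x ^ (n : ℕ))
    (fun n => by
      have h3 := hasSum_fintype (fun y : Nat.divisorsAntidiagonal (n : ℕ) =>
        ((fun p : ℕ+ × ℕ+ => c p.1 p.2 * x ^ ((p.1 : ℕ) * (p.2 : ℕ))) ∘
          sigmaAntidiagonalEquivProd) ⟨n, y⟩)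
      convert h3 using 1
      simp only [sigmaAntidiagonalEquivProd, divisorsAntidiagonalFactors, PNat.mk_coe,
        Equiv.coe_fn_mk, Function.comp_apply, Finset.univ_eq_attach]
      rw [(n : ℕ).divisorsAntidiagonal.sum_attach (fun y : ℕ × ℕ => c y.1 y.2 * x ^ (y.1 * y.2)),
        Nat.sum_divisorsAntidiagonal (fun d k => c d k * x ^ (d * k)), Finset.sum_mul]
      refine Finset.sum_congr rfl fun d hd => ?_
      rw [Nat.mul_div_cancel' (Nat.dvd_of_mem_divisors hd)])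
  rw [← PNat.coe_injective.hasSum_iff]
  · refine h2.congr_fun fun n => ?_
    simp only [Function.comp_apply, n.ne_zero, if_false]
  · intro n hn
    have : n = 0 := by
      by_contra h0
      exact hn ⟨⟨n, Nat.pos_of_ne_zero h0⟩, rfl⟩
    simp [this]

theorem lambAux_punctured {h : ℝ} {f : ℍ → ℂ} (hh : 0 < h) {c : ℕ → ℂ}
    (hf : ∀ (τ : ℍ), HasSum (fun m ↦ c m • 𝕢 h τ ^ m) (f τ)) {q : ℂ} (hq : ‖q‖ < 1)
    (hq1 : q ≠ 0) : HasSum (fun m ↦ c m • q ^ m) (cuspFunction h f q) := by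
  have h1 := Periodic.im_invQParam_pos_of_norm_lt_one hh hq hq1
  let τ : ℍ := ⟨Periodic.invQParam h q, h1⟩
  have h2 := (Periodic.cuspFunction_eq_of_nonzero h (f ∘ ofComplex) hq1)
  have : cuspFunction h f q = f τ := by simpa [UpperHalfPlane.ofComplex_apply_of_im_pos h1]
    using! h2
  grind [hf τ, Periodic.qParam_right_inv]

theorem lambAux_update {h : ℝ} {f : ℍ → ℂ} (hh : 0 < h) {c : ℕ → ℂ}
    (hf : ∀ τ : ℍ, HasSum (fun m : ℕ ↦ (c m) • 𝕢 h τ ^ m) (f τ)) :
    HasFPowerSeriesOnBall (update (cuspFunction h f) 0 (c 0)) (.ofScalars ℂ c) 0 1 := by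
  constructor
  · refine le_of_forall_lt_imp_le_of_dense fun r hr ↦ ?_
    rcases eq_or_ne r 0 with rfl | hr'
    · simp
    · lift r to NNReal using hr.ne_top
      let : FiniteDimensional ℝ ℂ := basisOneI.finiteDimensional_of_finite
      apply FormalMultilinearSeries.le_radius_of_summable
      simpa [smul_eq_mul, norm_mul, mul_comm, mul_left_comm, mul_assoc] using
        (lambAux_punctured hh hf (q := r) (by simpa using hr)
          (mod_cast hr')).summable.norm
  · simp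
  · intro y hy
    rw [← ENNReal.coe_one, Metric.eball_coe, NNReal.coe_one, mem_ball_zero_iff] at hy
    rcases eq_or_ne y 0 with rfl | hy'
    · simpa +contextual [zero_pow_eq] using hasSum_ite_eq 0 (c 0)
    · simpa [update_of_ne hy', mul_comm]
        using lambAux_punctured hh hf hy hy'

theorem mdiff_of_hasSum {h : ℝ} (hh : 0 < h) {f : ℍ → ℂ} {c : ℕ → ℂ}
    (hf : ∀ τ : ℍ, HasSum (fun m ↦ c m • 𝕢 h (τ : ℂ) ^ m) (f τ)) : MDiff f := by
  have hfeq : ∀ τ : ℍ, f τ = update (cuspFunction h f) 0 (c 0) (𝕢 h τ) := by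
    intro τ
    rw [update_of_ne (Periodic.qParam_ne_zero _)]
    exact (hf τ).unique (lambAux_punctured hh hf
      (Periodic.norm_qParam_lt_one hh τ.im_pos) (exp_ne_zero _))
  rw [UpperHalfPlane.mdifferentiable_iff]
  have hg := (lambAux_update hh hf).differentiableOn
  have hcomp : DifferentiableOn ℂ (update (cuspFunction h f) 0 (c 0) ∘ 𝕢 h) {z | 0 < z.im} := by
    refine hg.comp (Periodic.differentiable_qParam.differentiableOn) fun z hz => ?_
    rw [← ENNReal.coe_one, Metric.eball_coe, NNReal.coe_one, mem_ball_zero_iff]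
    exact Periodic.norm_qParam_lt_one hh hz
  refine hcomp.congr fun z hz => ?_
  simp only [Function.comp_apply, ofComplex_apply_of_im_pos hz]
  exact hfeq ⟨z, hz⟩

theorem periodic_of_hasSum {f : ℍ → ℂ} {c : ℕ → ℂ}
    (hf : ∀ τ : ℍ, HasSum (fun m ↦ c m • 𝕢 (1 : ℝ) (τ : ℂ) ^ m) (f τ)) :
    Function.Periodic (f ∘ ofComplex) 1 := by
  intro z
  by_cases hz : 0 < z.im
  · have hz1 : 0 < (z + 1).im := by simpa using hz
    simp only [Function.comp_apply, ofComplex_apply_of_im_pos hz, ofComplex_apply_of_im_pos hz1]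
    have h1 := hf ⟨z + 1, hz1⟩
    have h2 := hf ⟨z, hz⟩
    have h3 : 𝕢 (1 : ℝ) (z + 1) = 𝕢 (1 : ℝ) z := by
      unfold Function.Periodic.qParam
      have : 2 * (π : ℂ) * Complex.I * (z + 1) / ((1 : ℝ) : ℂ) =
          2 * π * Complex.I * z / ((1 : ℝ) : ℂ) + 2 * π * Complex.I := by
        push_cast; ring
      rw [this, Complex.exp_add, Complex.exp_two_pi_mul_I, mul_one]
    change HasSum (fun m ↦ c m • 𝕢 (1 : ℝ) (z + 1) ^ m) _ at h1
    rw [h3] at h1
    exact h1.unique h2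
  · have hz1 : ¬ 0 < (z + 1).im := by simpa using hz
    simp only [Function.comp_apply, ofComplex_apply_of_im_nonpos (not_lt.mp hz),
      ofComplex_apply_of_im_nonpos (not_lt.mp hz1)]

end Fermat.Agent.S48.Z
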