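import Fermat.Agent.S48.Z.Iter

/-!
# S48 / Z-PER : quasi-periodicity of `EE`, periodicity of `Zf M v` in `v mod M`      [key S48/Z-PER, ~250 lines, MATHLIB ONLY]

All from `tendsto_cot_sum` (limits are unique: `tendsto_nhds_unique`).   `P_K(z) = ∑_{m ∈ Icc (-K) K} π cot π(z+mτ)`.
* `EE_add_one`: `cot (π(z+1+mτ)) = cot(π(z+mτ) + π) = cot(π(z+mτ))` (`Complex.cot` is `π`-periodic: `Complex.cot_add_pi`? else via `cot_pi_eq_exp_ratio`, `exp_periodic`), so `P_K(z+1) = P_K(z)`.
* `EE_add_tau`: `P_K(z+τ) = ∑_{m ∈ Icc (-K+1) (K+1)} π cot π(z+mτ) = P_K(z) + π cot π(z+(K+1)τ) - π cot π(z - Kτ)`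
  (`Finset.sum_Icc_succ_top`-type manipulations over `ℤ`, or induction on `K`), and `tendsto_cot_up`, `tendsto_cot_down` (shifted by one: `(tendsto_add_atTop_iff_nat 1)`):
  the difference tends to `-πi - πi = -2πi`.
* the hypothesis `hz` is stable under `z ↦ z + L τ w₀` (`L τ (w + w₀) = L τ w + L τ w₀`).
* `EE_add_L`: induction on `w 0`, `w 1` (`Int.induction_on`), using the two previous lemmas (also backwards: apply them to `z - 1`, `z - τ`).
* `zpt_ne`: `zpt M v τ + L τ w = L τ (v + M w)/M`, and `L τ u = 0 ↔ u = 0` (`L_eq_zero_iff`); `v + M w = 0` would give `M ∣ v i`.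
* `Zf_congr`: `v' = v + M • e`, `zpt M v' τ = zpt M v τ + L τ e`, `EE` changes by `-2πi e 0`, `v' 0/M = v 0/M + e 0`: the two changes cancel.
-/

set_option autoImplicit false

open UpperHalfPlane hiding I
open Complex EisensteinSeries Filter
open scoped Real Topology

noncomputable section

namespace Fermat.Agent.S48.Z

theorem L_add (τ : ℍ) (w w' : Fin 2 → ℤ) : L τ (w + w') = L τ w + L τ w' := by
  simp only [L, Pi.add_apply]
  push_cast
  ring

theorem perAux_shift {z : ℂ} {τ : ℍ} (hz : ∀ w : Fin 2 → ℤ, z + L τ w ≠ 0) (w₀ : Fin 2 → ℤ) :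
    ∀ w : Fin 2 → ℤ, (z + L τ w₀) + L τ w ≠ 0 := by
  intro w
  have := hz (w₀ + w)
  rwa [L_add, ← add_assoc] at this

theorem perAux_cot_add_one (x : ℂ) : cot (π * (x + 1)) = cot (π * x) := by
  rw [cot_pi_eq_exp_ratio, cot_pi_eq_exp_ratio]
  have : cexp (2 * π * I * (x + 1)) = cexp (2 * π * I * x) := by
    rw [mul_add, mul_one, exp_add, exp_two_pi_mul_I, mul_one]
  rw [this]

theorem EE_add_one {z : ℂ} {τ : ℍ} (hz : ∀ w : Fin 2 → ℤ, z + L τ w ≠ 0) :
    EE (z + 1) τ = EE z τ := by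
  have h1 : ∀ w : Fin 2 → ℤ, (z + 1) + L τ w ≠ 0 := by
    have := perAux_shift hz ![0, 1]
    simpa [L] using this
  have t1 := tendsto_cot_sum h1
  have t0 := tendsto_cot_sum hz
  refine tendsto_nhds_unique t1 (t0.congr fun K => ?_)
  refine Finset.sum_congr rfl fun m _ => ?_
  rw [show z + 1 + (m : ℂ) * τ = (z + m * τ) + 1 by ring, perAux_cot_add_one]

theorem perAux_sum (f : ℤ → ℂ) (K : ℕ) :
    ∑ m ∈ Finset.Icc (-(K : ℤ)) K, f (m + 1) =
      ∑ m ∈ Finset.Icc (-(K : ℤ)) K, f m + f (K + 1) - f (-K) := by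
  induction K with
  | zero => simp
  | succ K ih =>
    have e : Finset.Icc (-((K + 1 : ℕ) : ℤ)) ((K + 1 : ℕ) : ℤ) =
        insert (((K + 1 : ℕ) : ℤ)) (insert (-((K + 1 : ℕ) : ℤ)) (Finset.Icc (-(K : ℤ)) K)) := by
      ext x
      simp only [Finset.mem_Icc, Finset.mem_insert]
      push_cast
      omega
    have n1 : (-((K + 1 : ℕ) : ℤ)) ∉ Finset.Icc (-(K : ℤ)) K := by
      simp only [Finset.mem_Icc]; push_cast; omega
    have n2 : (((K + 1 : ℕ) : ℤ)) ∉ insert (-((K + 1 : ℕ) : ℤ)) (Finset.Icc (-(K : ℤ)) K) := by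
      simp only [Finset.mem_Icc, Finset.mem_insert]; push_cast; omega
    rw [e, Finset.sum_insert n2, Finset.sum_insert n1, Finset.sum_insert n2, Finset.sum_insert n1, ih]
    push_cast
    have e1 : (-((K : ℤ) + 1) + 1) = -(K : ℤ) := by ring
    rw [e1]
    ring

theorem EE_add_tau {z : ℂ} {τ : ℍ} (hz : ∀ w : Fin 2 → ℤ, z + L τ w ≠ 0) :
    EE (z + τ) τ = EE z τ - 2 * π * I := by
  have h1 : ∀ w : Fin 2 → ℤ, (z + τ) + L τ w ≠ 0 := by
    have := perAux_shift hz ![1, 0]
    simpa [L] using this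
  have t1 := tendsto_cot_sum h1
  have t0 := tendsto_cot_sum hz
  have tu := (tendsto_cot_up z τ).comp (tendsto_add_atTop_nat 1)
  have td := tendsto_cot_down z τ
  have t2 := (t0.add tu).sub td
  have e : EE z τ + -(π * I) - π * I = EE z τ - 2 * π * I := by ring
  rw [e] at t2
  refine tendsto_nhds_unique t1 (t2.congr fun K => ?_)
  have := perAux_sum (fun m : ℤ => π * cot (π * (z + m * τ))) K
  simp only [Function.comp_apply]
  have e2 : ∑ m ∈ Finset.Icc (-(K : ℤ)) K, π * cot (π * (z + τ + m * τ)) =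
      ∑ m ∈ Finset.Icc (-(K : ℤ)) K, π * cot (π * (z + ((m + 1 : ℤ) : ℂ) * τ)) := by
    refine Finset.sum_congr rfl fun m _ => ?_
    congr 3
    push_cast
    ring
  rw [e2, this]
  push_cast
  congr 3
  ring

theorem EE_add_L {z : ℂ} {τ : ℍ} (hz : ∀ w : Fin 2 → ℤ, z + L τ w ≠ 0) (w : Fin 2 → ℤ) :
    EE (z + L τ w) τ = EE z τ - 2 * π * I * (w 0 : ℤ) := by
  -- integer translations
  have hA : ∀ (n : ℤ) (z : ℂ), (∀ w : Fin 2 → ℤ, z + L τ w ≠ 0) → EE (z + n) τ = EE z τ := by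
    intro n
    induction n using Int.induction_on with
    | zero => intro z _; simp
    | succ n ih =>
      intro z hz
      have h' : ∀ w : Fin 2 → ℤ, (z + (n : ℤ)) + L τ w ≠ 0 := by
        have := perAux_shift hz ![0, (n : ℤ)]
        simpa [L] using this
      have := EE_add_one h'
      rw [ih z hz] at this
      rw [← this]
      congr 1
      push_cast
      ring
    | pred n ih =>
      intro z hz
      have h' : ∀ w : Fin 2 → ℤ, (z + ((-(n : ℤ) - 1 : ℤ) : ℂ)) + L τ w ≠ 0 := by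
        have := perAux_shift hz ![0, (-(n : ℤ) - 1)]
        simpa [L] using this
      have := EE_add_one h'
      rw [← this, ← ih z hz]
      congr 1
      push_cast
      ring
  have hB : ∀ (n : ℤ) (z : ℂ), (∀ w : Fin 2 → ℤ, z + L τ w ≠ 0) →
      EE (z + n * τ) τ = EE z τ - 2 * π * I * n := by
    intro n
    induction n using Int.induction_on with
    | zero => intro z _; simp
    | succ n ih =>
      intro z hz
      have h' : ∀ w : Fin 2 → ℤ, (z + (n : ℤ) * τ) + L τ w ≠ 0 := by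
        have := perAux_shift hz ![(n : ℤ), 0]
        simpa [L] using this
      have := EE_add_tau h'
      rw [ih z hz] at this
      have e : z + ((n : ℤ) + 1 : ℤ) * (τ : ℂ) = z + (n : ℤ) * τ + τ := by push_cast; ring
      rw [e, this]
      push_cast
      ring
    | pred n ih =>
      intro z hz
      have h' : ∀ w : Fin 2 → ℤ, (z + ((-(n : ℤ) - 1 : ℤ) : ℂ) * τ) + L τ w ≠ 0 := by
        have := perAux_shift hz ![(-(n : ℤ) - 1), 0]
        simpa [L] using this
      have := EE_add_tau h'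
      have e : z + ((-(n : ℤ) - 1 : ℤ) : ℂ) * (τ : ℂ) + τ = z + ((-(n : ℤ) : ℤ) : ℂ) * τ := by
        push_cast; ring
      rw [e, ih z hz] at this
      have e3 : EE (z + ((-(n : ℤ) - 1 : ℤ) : ℂ) * τ) τ = EE z τ - 2 * π * I * ((-(n : ℤ) : ℤ) : ℂ) + 2 * π * I := by
        rw [this]; ring
      rw [e3]
      push_cast
      ring
  have h' : ∀ u : Fin 2 → ℤ, (z + (w 0 : ℤ) * τ) + L τ u ≠ 0 := by
    have := perAux_shift hz ![w 0, 0]
    simpa [L] using this
  rw [L, ← add_assoc, hA _ _ h', hB _ _ hz]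

theorem zpt_ne {M : ℕ} [NeZero M] {v : Fin 2 → ℤ} (hv : ¬ ∀ i, (M : ℤ) ∣ v i) (τ : ℍ)
    (w : Fin 2 → ℤ) : zpt M v τ + L τ w ≠ 0 := by
  have hM : (M : ℂ) ≠ 0 := by exact_mod_cast NeZero.ne M
  intro h
  apply hv
  have h1 : L τ (v + (M : ℤ) • w) = 0 := by
    have : L τ (v + (M : ℤ) • w) = M * (zpt M v τ + L τ w) := by
      rw [zpt, L_add]
      simp only [L, Pi.smul_apply, smul_eq_mul]
      push_cast
      field_simp
    rw [this, h, mul_zero]
  rw [L_eq_zero_iff] at h1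
  intro i
  have := congrFun h1 i
  simp only [Pi.add_apply, Pi.smul_apply, smul_eq_mul, Pi.zero_apply] at this
  exact ⟨-w i, by linarith⟩

theorem Zf_congr {M : ℕ} [NeZero M] {v v' : Fin 2 → ℤ} (h : ∀ i, (M : ℤ) ∣ v i - v' i)
    (hv : ¬ ∀ i, (M : ℤ) ∣ v i) : Zf M v = Zf M v' := by
  have hM : (M : ℂ) ≠ 0 := by exact_mod_cast NeZero.ne M
  have hpi : (2 * π * I : ℂ) ≠ 0 := by
    simp [Real.pi_ne_zero, I_ne_zero]
  choose e he using h
  ext τ
  have hz : zpt M v' τ = zpt M v τ + L τ (-e) := by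
    have h0 := he 0
    have h1 := he 1
    have h0' : (v' 0 : ℂ) = v 0 - M * e 0 := by
      have : v' 0 = v 0 - M * e 0 := by linarith
      exact_mod_cast this
    have h1' : (v' 1 : ℂ) = v 1 - M * e 1 := by
      have : v' 1 = v 1 - M * e 1 := by linarith
      exact_mod_cast this
    simp only [zpt, L, Pi.neg_apply]
    rw [h0', h1']
    push_cast
    field_simp
    ring
  have h0' : (v' 0 : ℂ) = v 0 - M * e 0 := by
    have : v' 0 = v 0 - M * e 0 := by have := he 0; linarith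
    exact_mod_cast this
  rw [Zf, Zf, hz, EE_add_L (zpt_ne hv τ), h0']
  simp only [Pi.neg_apply]
  push_cast
  field_simp
  ring

end Fermat.Agent.S48.Z
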