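import Fermat.Agent.S48.Z.Strip
import Fermat.Agent.S48.Z.Per
import Fermat.Agent.S48.Z.Lambert

/-!
# S48 / Z-QB : the `q_M`-expansion of `Zf M v`       [key S48/Z-QB, ~400 lines, MATHLIB ONLY]

`X = 𝕢 M τ = exp(2πi τ/M)`, `‖X‖ < 1`, `X^M = exp(2πi τ) = q`;  `z = zpt M v τ = (v0 τ + v1)/M`, `exp(2πi z) = ez M v1 * X^v0` for `v0 ≥ 0`.

* `norm_zcc_le`: `‖ez M j‖ = 1` (`Complex.norm_exp_ofReal_mul_I`-type: the exponent is purely imaginary), so `‖zcc‖ ≤ 2`.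
* `ez_add`, `ez_mul_self`: `ez M (i+j) = ez M i * ez M j`, `ez M (M*j) = 1`; hence `ez_congr : M ∣ i - j → ez M i = ez M j`.
* `Zf_eq_tsum` (`0 ≤ v0 < M`).  `Im z = v0 Im τ/M ∈ [0, Im τ)`.  `z ∈ ℂ_ℤ`: if `v0 > 0` then `Im z > 0`; if `v0 = 0` then `z = v1/M` with `M ∤ v1`.  `EE_eq_of_strip`:
     `-EE/(2πi) = -π cot(πz)/(2πi) + ∑'_{(m,k)} (x^k - x'^k) q^(mk)`,   `x^k q^(mk) = ez M (k v1) X^(k (v0 + mM))`, `x'^k q^(mk) = ez M (-(k v1)) X^(k (mM - v0))`.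
   CASE `v0 = 0`: `-π cot(π z)/(2πi) = (1+t)/(2(1-t))`, `t = ez M v1` (`Complex.cot_pi_eq_exp_ratio`, `I*I = -1`, `t ≠ 1`).  `zcc M v d k = [M ∣ d](ez(k v1) - ez(-(k v1)))`.
     Reindex by the injective map `(m,k) ↦ (mM, k)` of `ℕ+ × ℕ+`, whose range contains the support of `(d,k) ↦ zcc M v d k X^(dk)` (`Function.Injective.tsum_eq`).
   CASE `0 < v0`: `cot_of_im_pos`: `-π cot(πz)/(2πi) = 1/2 + ∑_{k ≥ 1} x^k`.  Split `zcc = A - B` (both parts summable by `summable_lambert`), `∑' A`: reindex by `(m,k) ↦ (v0 + mM, k)`, `m : ℕ`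
     (`m = 0` is the series `∑ x^k`, `m ≥ 1` the first half of the strip series: `tsum` over `ℕ × ℕ+` = row `0` + `tsum` over `ℕ+ × ℕ+`), `∑' B`: reindex by `(m,k) ↦ (mM - v0, k)`, `m : ℕ+`.
     `{d ≥ 1 : M ∣ d - v0} = {v0 + mM : m ≥ 0}` and `{d ≥ 1 : M ∣ d + v0} = {mM - v0 : m ≥ 1}` because `0 < v0 < M`.  Constant: `1/2 - v0/M`, `v0 % M = v0` (`Int.emod_eq_of_lt`).
* `zc_congr`: `zc0`, `zcc` only depend on `v mod M` (`Int.emod_emod_of_dvd`/`Int.emod_eq_emod_iff_emod_sub_eq_zero`, `ez_congr`, `dvd_sub`-manipulations).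
* `hasSum_Zf`: reduce to `v' = ![v 0 % M, v 1]` by `Zf_congr`, `zc_congr`; then `Zf_eq_tsum` + `hasSum_lambert (zcc M v') 2` + the constant term
  (`hasSum_ite_eq`/`hasSum_single 0`), `HasSum.add`; `smul_eq_mul`.
-/

set_option autoImplicit false

open UpperHalfPlane hiding I
open Complex EisensteinSeries Filter
open scoped Real Topology

noncomputable section

namespace Fermat.Agent.S48.Z

local notation "𝕢" => Function.Periodic.qParam
local notation "ℂ_ℤ" => Complex.integerComplement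

theorem norm_ez (M : ℕ) (j : ℤ) : ‖ez M j‖ = 1 := by
  have : (2 * π * I * j / M : ℂ) = ((2 * π * j / M : ℝ) : ℂ) * I := by
    push_cast; ring
  rw [ez, this, norm_exp_ofReal_mul_I]

theorem ez_add (M : ℕ) (i j : ℤ) : ez M (i + j) = ez M i * ez M j := by
  rw [ez, ez, ez, ← Complex.exp_add]
  congr 1
  push_cast
  ring

theorem ez_eq_one_iff {M : ℕ} [NeZero M] {j : ℤ} : ez M j = 1 ↔ (M : ℤ) ∣ j := by
  have hM : (M : ℂ) ≠ 0 := by exact_mod_cast NeZero.ne M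
  have hpi : (2 * π * I : ℂ) ≠ 0 := by
    simp [Real.pi_ne_zero, I_ne_zero]
  rw [ez, Complex.exp_eq_one_iff]
  constructor
  · rintro ⟨n, hn⟩
    refine ⟨n, ?_⟩
    have h1 : (j : ℂ) = M * n := by
      field_simp at hn
      exact hn
    exact_mod_cast h1
  · rintro ⟨n, rfl⟩
    refine ⟨n, ?_⟩
    push_cast
    field_simp

theorem ez_congr {M : ℕ} [NeZero M] {i j : ℤ} (h : (M : ℤ) ∣ i - j) : ez M i = ez M j := by
  have : ez M i = ez M (i - j) * ez M j := by rw [← ez_add]; congr 1; ring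
  rw [this, ez_eq_one_iff.mpr h, one_mul]

theorem norm_zcc_le (M : ℕ) (v : Fin 2 → ℤ) (d k : ℕ) : ‖zcc M v d k‖ ≤ 2 := by
  unfold zcc
  refine (norm_sub_le _ _).trans ?_
  have h1 : ∀ (P : Prop) [Decidable P] (j : ℤ), ‖(if P then ez M j else 0 : ℂ)‖ ≤ 1 := by
    intro P _ j
    split_ifs
    · rw [norm_ez]
    · simp
  linarith [h1 ((M : ℤ) ∣ (d : ℤ) - v 0) ((k : ℤ) * v 1), h1 ((M : ℤ) ∣ (d : ℤ) + v 0) (-((k : ℤ) * v 1))]

theorem qbAux_reindex {ι : Type*} (g : ℕ → ℂ) (hg : ∀ k, ‖g k‖ ≤ 1) (P : ℕ → Prop) [DecidablePred P]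
    (φ : ι → ℕ+) (hφ : Function.Injective φ) (hP : ∀ d : ℕ+, P d → d ∈ Set.range φ)
    (hP' : ∀ i, P (φ i)) {X : ℂ} (hX : ‖X‖ < 1) :
    Summable (fun p : ι × ℕ+ => g p.2 * X ^ ((φ p.1 : ℕ) * (p.2 : ℕ))) ∧
    ∑' p : ℕ+ × ℕ+, (if P p.1 then g p.2 else 0) * X ^ ((p.1 : ℕ) * (p.2 : ℕ)) =
      ∑' p : ι × ℕ+, g p.2 * X ^ ((φ p.1 : ℕ) * (p.2 : ℕ)) := by
  have hF := summable_lambert (fun d k => if P d then g k else 0) 1 (by
    intro d k
    split_ifs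
    · exact hg k
    · simp) hX
  have hj : Function.Injective (Prod.map φ (id : ℕ+ → ℕ+)) := hφ.prodMap Function.injective_id
  have e : (fun p : ℕ+ × ℕ+ => (if P p.1 then g p.2 else 0) * X ^ ((p.1 : ℕ) * (p.2 : ℕ))) ∘
      (Prod.map φ (id : ℕ+ → ℕ+)) = fun p : ι × ℕ+ => g p.2 * X ^ ((φ p.1 : ℕ) * (p.2 : ℕ)) := by
    funext p
    simp [hP' p.1]
  refine ⟨e ▸ hF.comp_injective hj, ?_⟩
  rw [← e]
  refine (hj.tsum_eq ?_).symm
  intro p hp
  have h1 : P p.1 := by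
    by_contra h
    apply hp
    simp [h]
  obtain ⟨i, hi⟩ := hP p.1 h1
  exact ⟨(i, p.2), by simp [Prod.map, hi]⟩

theorem qbAux_X_pow (M : ℕ) (τ : ℍ) (n : ℕ) :
    𝕢 (M : ℝ) (τ : ℂ) ^ n = cexp (2 * π * I * (n * τ) / M) := by
  rw [Function.Periodic.qParam, ← Complex.exp_nat_mul]
  congr 1
  push_cast
  ring

theorem qbAux_E1 {M : ℕ} [NeZero M] (τ : ℍ) (n0 : ℕ) (b : ℤ) (m k : ℕ) :
    cexp (2 * π * I * (((n0 : ℂ) * τ + b) / M)) ^ k * cexp (2 * π * I * τ) ^ (m * k) =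
      ez M ((k : ℤ) * b) * 𝕢 (M : ℝ) (τ : ℂ) ^ ((n0 + m * M) * k) := by
  have hM : (M : ℂ) ≠ 0 := by exact_mod_cast NeZero.ne M
  rw [qbAux_X_pow, ez, ← Complex.exp_nat_mul, ← Complex.exp_nat_mul, ← Complex.exp_add,
    ← Complex.exp_add]
  congr 1
  push_cast
  field_simp
  ring

theorem qbAux_E2 {M : ℕ} [NeZero M] (τ : ℍ) (n0 : ℕ) (b : ℤ) (m k : ℕ) (h : n0 ≤ m * M) :
    cexp (-(2 * π * I * (((n0 : ℂ) * τ + b) / M))) ^ k * cexp (2 * π * I * τ) ^ (m * k) =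
      ez M (-((k : ℤ) * b)) * 𝕢 (M : ℝ) (τ : ℂ) ^ ((m * M - n0) * k) := by
  have hM : (M : ℂ) ≠ 0 := by exact_mod_cast NeZero.ne M
  rw [qbAux_X_pow, ez, ← Complex.exp_nat_mul, ← Complex.exp_nat_mul, ← Complex.exp_add,
    ← Complex.exp_add]
  congr 1
  rw [Nat.cast_mul (m * M - n0) k, Nat.cast_sub h]
  push_cast
  field_simp
  ring

theorem Zf_eq_tsum {M : ℕ} [NeZero M] {v : Fin 2 → ℤ} (hv : ¬ ∀ i, (M : ℤ) ∣ v i) (h0 : 0 ≤ v 0)
    (h1 : v 0 < M) (τ : ℍ) :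
    Zf M v τ = zc0 M v + ∑' p : ℕ+ × ℕ+, zcc M v p.1 p.2 * 𝕢 (M : ℝ) (τ : ℂ) ^ ((p.1 : ℕ) * (p.2 : ℕ)) := by
  obtain ⟨n0, hn0⟩ := Int.eq_ofNat_of_zero_le h0
  have hn0M : n0 < M := by rw [hn0] at h1; exact_mod_cast h1
  have hMpos : 0 < M := Nat.pos_of_ne_zero (NeZero.ne M)
  have hMR : (0 : ℝ) < M := by exact_mod_cast hMpos
  have hM : (M : ℂ) ≠ 0 := by exact_mod_cast NeZero.ne M
  have hpi : (2 * π * I : ℂ) ≠ 0 := by
    simp [Real.pi_ne_zero, I_ne_zero]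
  set X := 𝕢 (M : ℝ) (τ : ℂ) with hXdef
  have hX : ‖X‖ < 1 := Function.Periodic.norm_qParam_lt_one hMR τ.im_pos
  have hz : zpt M v τ = ((n0 : ℂ) * τ + (v 1 : ℤ)) / M := by
    rw [zpt, L, hn0]; push_cast; rfl
  have him : (zpt M v τ).im = n0 * τ.im / M := by
    rw [hz, Complex.div_natCast_im]
    simp
  have him0 : 0 ≤ (zpt M v τ).im := by
    rw [him]; have := τ.im_pos; positivity
  have him1 : (zpt M v τ).im < τ.im := by
    rw [him, div_lt_iff₀ hMR, mul_comm]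
    have : (n0 : ℝ) < M := by exact_mod_cast hn0M
    exact mul_lt_mul_of_pos_left this τ.im_pos
  have hzZ : zpt M v τ ∈ ℂ_ℤ := by
    rintro ⟨n, hn⟩
    apply zpt_ne hv τ ![0, -n]
    simp [L, ← hn]
  have hEE := EE_eq_of_strip hzZ him0 him1
  have hSS := summable_strip him0 him1
  -- the two halves
  have hgA : ∀ k : ℕ, ‖ez M ((k : ℤ) * v 1)‖ ≤ 1 := fun k => (norm_ez _ _).le
  have hgB : ∀ k : ℕ, ‖ez M (-((k : ℤ) * v 1))‖ ≤ 1 := fun k => (norm_ez _ _).le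
  have hlt : ∀ m : ℕ+, n0 < (m : ℕ) * M := fun m =>
    lt_of_lt_of_le hn0M (Nat.le_mul_of_pos_left M m.pos)
  let φB : ℕ+ → ℕ+ := fun m => ⟨(m : ℕ) * M - n0, Nat.sub_pos_of_lt (hlt m)⟩
  have hφB : Function.Injective φB := by
    intro m m' h
    have h' : (m : ℕ) * M - n0 = (m' : ℕ) * M - n0 := congrArg PNat.val h
    have h2 : (m : ℕ) * M = (m' : ℕ) * M := by have := hlt m; have := hlt m'; omega
    exact PNat.coe_injective (Nat.eq_of_mul_eq_mul_right hMpos h2)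
  have hMZ : (0 : ℤ) < (M : ℤ) := by exact_mod_cast hMpos
  have hB := qbAux_reindex (fun k : ℕ => ez M (-((k : ℤ) * v 1))) hgB
    (fun d : ℕ => (M : ℤ) ∣ (d : ℤ) + v 0) φB hφB (by
      intro d hd
      obtain ⟨c, hc⟩ := hd
      rw [hn0] at hc
      have hcpos : 0 < c := by
        have h3 : (0 : ℤ) < (M : ℤ) * c := by
          rw [← hc]; have := d.pos; positivity
        exact (mul_pos_iff_of_pos_left hMZ).mp h3
      lift c to ℕ using hcpos.le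
      have hc' : (d : ℕ) + n0 = M * c := by exact_mod_cast hc
      refine ⟨⟨c, by exact_mod_cast hcpos⟩, ?_⟩
      apply PNat.coe_injective
      show c * M - n0 = (d : ℕ)
      rw [mul_comm, ← hc']; omega) (by
      intro m
      show (M : ℤ) ∣ (((m : ℕ) * M - n0 : ℕ) : ℤ) + v 0
      rw [hn0, Nat.cast_sub (hlt m).le]
      exact ⟨m, by push_cast; ring⟩) hX
  let φA : ℕ+ → ℕ+ := fun m => ⟨n0 + (m : ℕ) * M, by
    have : 0 < (m : ℕ) * M := Nat.mul_pos m.pos hMpos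
    omega⟩
  have hφA : Function.Injective φA := by
    intro m m' h
    have h' : n0 + (m : ℕ) * M = n0 + (m' : ℕ) * M := congrArg PNat.val h
    exact PNat.coe_injective (Nat.eq_of_mul_eq_mul_right hMpos (by omega))
  have hA := qbAux_reindex (fun k : ℕ => ez M ((k : ℤ) * v 1)) hgA
    (fun d : ℕ => (M : ℤ) ∣ (d : ℤ) - v 0 ∧ n0 < d) φA hφA (by
      rintro d ⟨⟨c, hc⟩, hd⟩
      rw [hn0] at hc
      have hcpos : 0 < c := by
        have h3 : (0 : ℤ) < (M : ℤ) * c := by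
          rw [← hc]; have : (n0 : ℤ) < (d : ℕ) := by exact_mod_cast hd
          linarith
        exact (mul_pos_iff_of_pos_left hMZ).mp h3
      lift c to ℕ using hcpos.le
      have hc' : (d : ℕ) = n0 + M * c := by
        have : ((d : ℕ) : ℤ) = n0 + M * c := by linarith
        exact_mod_cast this
      refine ⟨⟨c, by exact_mod_cast hcpos⟩, ?_⟩
      apply PNat.coe_injective
      show n0 + c * M = (d : ℕ)
      rw [hc', mul_comm]) (by
      intro m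
      refine ⟨?_, ?_⟩
      · show (M : ℤ) ∣ ((n0 + (m : ℕ) * M : ℕ) : ℤ) - v 0
        rw [hn0]
        exact ⟨m, by push_cast; ring⟩
      · show n0 < n0 + (m : ℕ) * M
        have : 0 < (m : ℕ) * M := Nat.mul_pos m.pos hMpos
        omega) hX
  -- the strip series
  have hstrip : ∑' p : ℕ+ × ℕ+, (cexp (2 * π * I * zpt M v τ) ^ (p.2 : ℕ) -
      cexp (-(2 * π * I * zpt M v τ)) ^ (p.2 : ℕ)) * cexp (2 * π * I * τ) ^ ((p.1 : ℕ) * (p.2 : ℕ)) =
      ∑' p : ℕ+ × ℕ+, ez M (((p.2 : ℕ) : ℤ) * v 1) * X ^ ((φA p.1 : ℕ) * (p.2 : ℕ)) -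
      ∑' p : ℕ+ × ℕ+, ez M (-(((p.2 : ℕ) : ℤ) * v 1)) * X ^ ((φB p.1 : ℕ) * (p.2 : ℕ)) := by
    rw [← hA.1.tsum_sub hB.1]
    refine tsum_congr fun p => ?_
    rw [sub_mul, hz, qbAux_E1, qbAux_E2 _ _ _ _ _ (hlt p.1).le]
    rfl
  -- splitting of `zcc`
  have hsA1 := summable_lambert (fun d k : ℕ => if ((M : ℤ) ∣ (d : ℤ) - v 0 ∧ n0 < d) then
    ez M ((k : ℤ) * v 1) else 0) 1 (by intro d k; split_ifs; exacts [hgA k, by simp]) hX
  have hsA0 := summable_lambert (fun d k : ℕ => if d = n0 then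
    ez M ((k : ℤ) * v 1) else 0) 1 (by intro d k; split_ifs; exacts [hgA k, by simp]) hX
  have hsB := summable_lambert (fun d k : ℕ => if (M : ℤ) ∣ (d : ℤ) + v 0 then
    ez M (-((k : ℤ) * v 1)) else 0) 1 (by intro d k; split_ifs; exacts [hgB k, by simp]) hX
  have hT : ∑' p : ℕ+ × ℕ+, zcc M v p.1 p.2 * X ^ ((p.1 : ℕ) * (p.2 : ℕ)) =
      ∑' p : ℕ+ × ℕ+, ez M (((p.2 : ℕ) : ℤ) * v 1) * X ^ ((φA p.1 : ℕ) * (p.2 : ℕ)) +
      ∑' p : ℕ+ × ℕ+, (if (p.1 : ℕ) = n0 then ez M (((p.2 : ℕ) : ℤ) * v 1) else 0) *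
        X ^ ((p.1 : ℕ) * (p.2 : ℕ)) -
      ∑' p : ℕ+ × ℕ+, ez M (-(((p.2 : ℕ) : ℤ) * v 1)) * X ^ ((φB p.1 : ℕ) * (p.2 : ℕ)) := by
    rw [← hA.2, ← hB.2, ← hsA1.tsum_add hsA0, ← (hsA1.add hsA0).tsum_sub hsB]
    refine tsum_congr fun p => ?_
    rw [← add_mul, ← sub_mul]
    congr 1
    unfold zcc
    congr 1
    by_cases hd : (M : ℤ) ∣ ((p.1 : ℕ) : ℤ) - v 0
    · by_cases hd2 : (p.1 : ℕ) = n0
      · rw [if_pos hd, if_neg (by rintro ⟨_, h⟩; omega), if_pos hd2, zero_add]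
      · have hd3 : n0 < (p.1 : ℕ) := by
          by_contra hlt'
          have hlt2 : (p.1 : ℕ) < n0 := by omega
          rw [hn0] at hd
          have h5 : (M : ℤ) ∣ (n0 : ℤ) - (p.1 : ℕ) := by
            have := (dvd_neg (a := (M : ℤ))).mpr hd
            simpa using this
          have h6 := Int.le_of_dvd (by have : ((p.1 : ℕ) : ℤ) < n0 := by exact_mod_cast hlt2
                                       linarith) h5
          have h7 : (n0 : ℤ) < M := by exact_mod_cast hn0M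
          have h8 : (0 : ℤ) < (p.1 : ℕ) := by exact_mod_cast p.1.pos
          linarith
        simp [hd, hd2, hd3]
    · have hd2 : (p.1 : ℕ) ≠ n0 := by
        intro h
        apply hd
        rw [h, hn0]; simp
      simp [hd, hd2]
  rw [hT, Zf, hEE, hstrip, hn0]
  set SA := ∑' p : ℕ+ × ℕ+, ez M (((p.2 : ℕ) : ℤ) * v 1) * X ^ ((φA p.1 : ℕ) * (p.2 : ℕ))
  set SB := ∑' p : ℕ+ × ℕ+, ez M (-(((p.2 : ℕ) : ℤ) * v 1)) * X ^ ((φB p.1 : ℕ) * (p.2 : ℕ))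
  suffices hkey : -(π * cot (π * zpt M v τ)) / (2 * π * I) - (n0 : ℂ) / M = zc0 M v +
      ∑' p : ℕ+ × ℕ+, (if (p.1 : ℕ) = n0 then ez M (((p.2 : ℕ) : ℤ) * v 1) else 0) *
        X ^ ((p.1 : ℕ) * (p.2 : ℕ)) by
    have e : -(π * cot (π * zpt M v τ) - 2 * π * I * (SA - SB)) / (2 * π * I) - ((n0 : ℤ) : ℂ) / M =
        (-(π * cot (π * zpt M v τ)) / (2 * π * I) - (n0 : ℂ) / M) + (SA - SB) := by
      push_cast
      field_simp
      ring
    rw [e, hkey]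
    ring
  rcases Nat.eq_zero_or_pos n0 with h00 | h00
  · -- `v 0 = 0`
    have hR : ∑' p : ℕ+ × ℕ+, (if (p.1 : ℕ) = n0 then ez M (((p.2 : ℕ) : ℤ) * v 1) else 0) *
        X ^ ((p.1 : ℕ) * (p.2 : ℕ)) = 0 := by
      convert tsum_zero with p
      rw [if_neg (by rw [h00]; exact p.1.pos.ne'), zero_mul]
    have hv1 : ¬ (M : ℤ) ∣ v 1 := by
      intro h
      apply hv
      intro i
      fin_cases i
      · simp [hn0, h00]
      · exact h
    have ht : 1 - ez M (v 1) ≠ 0 := by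
      intro h
      exact hv1 (ez_eq_one_iff.mp (sub_eq_zero.mp h).symm)
    have he : cexp (2 * π * I * zpt M v τ) = ez M (v 1) := by
      rw [hz, h00, ez]
      congr 1
      push_cast
      ring
    rw [hR, add_zero, zc0, if_pos (by simp [hn0, h00]), cot_pi_eq_exp_ratio, he, h00]
    have hI : (I : ℂ) ≠ 0 := I_ne_zero
    have hpi' : (π : ℂ) ≠ 0 := by exact_mod_cast Real.pi_ne_zero
    field_simp
    rw [I_sq]
    push_cast
    ring
  · have hnd : ¬ (M : ℤ) ∣ v 0 := by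
      rw [hn0]
      intro h
      have := Int.le_of_dvd (by exact_mod_cast h00) h
      have h7 : (n0 : ℤ) < M := by exact_mod_cast hn0M
      linarith
    have hmod : v 0 % (M : ℤ) = n0 := by
      rw [hn0]
      exact Int.emod_eq_of_lt (by positivity) (by exact_mod_cast hn0M)
    have hU := qbAux_reindex (ι := Unit) (fun k : ℕ => ez M ((k : ℤ) * v 1)) hgA
      (fun d : ℕ => d = n0) (fun _ => ⟨n0, h00⟩) (fun _ _ _ => rfl) (by
        intro d hd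
        exact ⟨(), PNat.coe_injective hd.symm⟩) (fun _ => rfl) hX
    have hR : ∑' p : ℕ+ × ℕ+, (if (p.1 : ℕ) = n0 then ez M (((p.2 : ℕ) : ℤ) * v 1) else 0) *
        X ^ ((p.1 : ℕ) * (p.2 : ℕ)) = ∑' k : ℕ, cexp (2 * π * I * zpt M v τ) ^ (k + 1) := by
      rw [hU.2, ← (Equiv.punitProd ℕ+).symm.tsum_eq]
      refine Eq.trans (b := ∑' c : ℕ+, (fun k : ℕ => ez M ((k : ℤ) * v 1) * X ^ (n0 * k)) (c : ℕ))
        rfl ?_
      rw [tsum_pnat_eq_tsum_succ (f := fun k : ℕ => ez M ((k : ℤ) * v 1) * X ^ (n0 * k))]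
      refine tsum_congr fun k => ?_
      have := qbAux_E1 (M := M) τ n0 (v 1) 0 (k + 1)
      rw [zero_mul, pow_zero, mul_one, zero_mul, add_zero] at this
      rw [hz, this]
    have hpos : 0 < (zpt M v τ).im := by
      rw [him]; have := τ.im_pos
      have : (0 : ℝ) < n0 := by exact_mod_cast h00
      positivity
    rw [hR, zc0, if_neg hnd, hmod, cot_of_im_pos hpos]
    push_cast
    field_simp
    ring

theorem zc_congr {M : ℕ} [NeZero M] {v v' : Fin 2 → ℤ} (h : ∀ i, (M : ℤ) ∣ v i - v' i) :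
    zc M v = zc M v' := by
  have hd0 : ∀ x : ℤ, (M : ℤ) ∣ x - v 0 ↔ (M : ℤ) ∣ x - v' 0 := by
    intro x
    constructor
    · intro hx
      have := dvd_add hx (h 0)
      simpa using this
    · intro hx
      have := dvd_sub hx (h 0)
      have e : x - v' 0 - (v 0 - v' 0) = x - v 0 := by ring
      rwa [e] at this
  have hd1 : ∀ x : ℤ, (M : ℤ) ∣ x + v 0 ↔ (M : ℤ) ∣ x + v' 0 := by
    intro x
    constructor
    · intro hx
      have := dvd_sub hx (h 0)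
      have e : x + v 0 - (v 0 - v' 0) = x + v' 0 := by ring
      rwa [e] at this
    · intro hx
      have := dvd_add hx (h 0)
      have e : x + v' 0 + (v 0 - v' 0) = x + v 0 := by ring
      rwa [e] at this
  have hcc : ∀ d k : ℕ, zcc M v d k = zcc M v' d k := by
    intro d k
    unfold zcc
    have e1 : ez M ((k : ℤ) * v 1) = ez M ((k : ℤ) * v' 1) :=
      ez_congr (by rw [← mul_sub]; exact Dvd.dvd.mul_left (h 1) _)
    have e2 : ez M (-((k : ℤ) * v 1)) = ez M (-((k : ℤ) * v' 1)) :=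
      ez_congr (by
        have : -((k : ℤ) * v 1) - -((k : ℤ) * v' 1) = (-(k : ℤ)) * (v 1 - v' 1) := by ring
        rw [this]; exact Dvd.dvd.mul_left (h 1) _)
    simp only [hd0, hd1, e1, e2]
  have hc0 : zc0 M v = zc0 M v' := by
    unfold zc0
    have e0 : (M : ℤ) ∣ v 0 ↔ (M : ℤ) ∣ v' 0 := by
      have := hd1 0
      simpa using this
    have e1 : ez M (v 1) = ez M (v' 1) := ez_congr (h 1)
    have e2 : v 0 % (M : ℤ) = v' 0 % (M : ℤ) :=
      Int.emod_eq_emod_iff_emod_sub_eq_zero.mpr (Int.emod_eq_zero_of_dvd (h 0))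
    simp only [e0, e1, e2]
  funext n
  unfold zc
  rw [hc0]
  simp only [hcc]

theorem hasSum_Zf {M : ℕ} [NeZero M] {v : Fin 2 → ℤ} (hv : ¬ ∀ i, (M : ℤ) ∣ v i) (τ : ℍ) :
    HasSum (fun n : ℕ => zc M v n • 𝕢 (M : ℝ) (τ : ℂ) ^ n) (Zf M v τ) := by
  have hMpos : 0 < M := Nat.pos_of_ne_zero (NeZero.ne M)
  have hMR : (0 : ℝ) < M := by exact_mod_cast hMpos
  have hMZ : (0 : ℤ) < (M : ℤ) := by exact_mod_cast hMpos
  have hX : ‖𝕢 (M : ℝ) (τ : ℂ)‖ < 1 := Function.Periodic.norm_qParam_lt_one hMR τ.im_pos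
  set v' : Fin 2 → ℤ := ![v 0 % (M : ℤ), v 1] with hv'def
  have hvv : ∀ i, (M : ℤ) ∣ v i - v' i := by
    intro i
    fin_cases i
    · show (M : ℤ) ∣ v 0 - v 0 % (M : ℤ)
      exact Int.dvd_self_sub_emod
    · show (M : ℤ) ∣ v 1 - v 1
      simp
  have hv' : ¬ ∀ i, (M : ℤ) ∣ v' i := by
    intro h
    apply hv
    intro i
    have := dvd_add (hvv i) (h i)
    simpa using this
  rw [Zf_congr hvv hv, zc_congr hvv,
    Zf_eq_tsum hv' (Int.emod_nonneg _ hMZ.ne') (Int.emod_lt_of_pos _ hMZ) τ]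
  have h1 := hasSum_lambert (zcc M v') 2 (norm_zcc_le M v') hX
  have h2 : HasSum (fun n : ℕ => (if n = 0 then zc0 M v' else 0) * 𝕢 (M : ℝ) (τ : ℂ) ^ n)
      (zc0 M v') := by
    have := hasSum_single (f := fun n : ℕ => (if n = 0 then zc0 M v' else 0) * 𝕢 (M : ℝ) (τ : ℂ) ^ n)
      0 (by intro n hn; simp [hn])
    simpa using this
  convert h2.add h1 using 2 with n
  unfold zc
  by_cases hn : n = 0
  · simp [hn]
  · simp [hn]

end Fermat.Agent.S48.Z
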