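import Fermat.Agent.S48.Forms
import Fermat.Agent.S48.Z.QExp
import Fermat.Agent.S48.Z.Lat

/-!
# S48 / Z-FAM : the functions `Zf M v` are modular forms of weight one on `Γ(M)`      [key S48/Z-FAM, ~200 lines]

* `isQ_of_hasSum`, `coeffFun_of_hasSum`: `S24.IsQ f = ⟨MDiff f, Periodic (f ∘ ofComplex) 1, IsBoundedAtImInfty f⟩`: `mdiff_of_hasSum one_pos`, `periodic_of_hasSum`,
  Mathlib `isBoundedAtImInfty_of_hasSum_qExpansion one_pos`; coefficients: `S24.qExpansion_coeff_unique' hQ.analytic hf n` (`S29.coeffFun f n = (qExpansion 1 f).coeff n` by `rfl`).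
* `mdiff_Zf`, `bdd_Zf`: `hasSum_Zf` with `h = M > 0`.
* `not_dvd_vecMul`: if `M ∣ (v ᵥ* γ) i` for all `i` then `M` divides all entries of `(v ᵥ* γ) ᵥ* γ⁻¹ = v` (`Matrix.vecMul_vecMul`, `γ * γ⁻¹ = 1`; entries of a `vecMul` are
  `ℤ`-linear combinations: `Matrix.vecMul`, `dotProduct`, `Fin.sum_univ_two`, `dvd_add`, `Dvd.dvd.mul_right`).  By hand: `γ⁻¹ = [[d,-b],[-c,a]]` (`Matrix.SpecialLinearGroup.SL2_inv_expl`).
* `vecMul_congr_of_mem_Gamma`: `γ ∈ Γ(M)` means `γ 0 0 ≡ 1, γ 0 1 ≡ 0, γ 1 0 ≡ 0, γ 1 1 ≡ 1 mod M` (`CongruenceSubgroup.Gamma_mem`, `ZMod.intCast_eq_intCast_iff_dvd_sub`/`(ZMod.intCast_zmod_eq_zero_iff_dvd _ _)`), so `M ∣ (v ᵥ* γ) i - v i`.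
* `isMF_Zf`: `holo := mdiff_Zf`, `inv γ hγ := Zf_slash + Zf_congr`, `bdd g := Zf_slash + bdd_Zf (not_dvd_vecMul ..)`.
-/

set_option autoImplicit false

open UpperHalfPlane hiding I
open Complex ModularForm CongruenceSubgroup Matrix Fermat.Agent.S24 Fermat.Agent.S29
open scoped Real Topology MatrixGroups Manifold

noncomputable section

namespace Fermat.Agent.S48.Z

local notation "𝕢" => Function.Periodic.qParam

theorem isQ_of_hasSum {f : ℍ → ℂ} {c : ℕ → ℂ}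
    (hf : ∀ τ : ℍ, HasSum (fun m ↦ c m • 𝕢 (1 : ℝ) (τ : ℂ) ^ m) (f τ)) : IsQ f :=
  ⟨mdiff_of_hasSum one_pos hf, periodic_of_hasSum hf,
    isBoundedAtImInfty_of_hasSum_qExpansion one_pos hf⟩

theorem coeffFun_of_hasSum {f : ℍ → ℂ} {c : ℕ → ℂ}
    (hf : ∀ τ : ℍ, HasSum (fun m ↦ c m • 𝕢 (1 : ℝ) (τ : ℂ) ^ m) (f τ)) (n : ℕ) :
    coeffFun f n = c n :=
  (qExpansion_coeff_unique' (isQ_of_hasSum hf).analytic hf n).symm

variable {M : ℕ} [NeZero M] {v : Fin 2 → ℤ}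

theorem famAux_pos (M : ℕ) [NeZero M] : (0 : ℝ) < M := by
  exact_mod_cast Nat.pos_of_ne_zero (NeZero.ne M)

theorem mdiff_Zf (hv : ¬ ∀ i, (M : ℤ) ∣ v i) : MDiff (Zf M v) :=
  mdiff_of_hasSum (famAux_pos M) (hasSum_Zf hv)

theorem bdd_Zf (hv : ¬ ∀ i, (M : ℤ) ∣ v i) : IsBoundedAtImInfty (Zf M v) :=
  isBoundedAtImInfty_of_hasSum_qExpansion (famAux_pos M) (hasSum_Zf hv)

theorem not_dvd_vecMul (hv : ¬ ∀ i, (M : ℤ) ∣ v i) (γ : SL(2, ℤ)) :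
    ¬ ∀ i, (M : ℤ) ∣ (v ᵥ* (γ : Matrix (Fin 2) (Fin 2) ℤ)) i := by
  intro h
  apply hv
  have h0 := h 0
  have h1 := h 1
  simp only [Matrix.vecMul, dotProduct, Fin.sum_univ_two] at h0 h1
  have hdet : γ 0 0 * γ 1 1 - γ 0 1 * γ 1 0 = 1 := by
    have := γ.2
    rwa [Matrix.det_fin_two] at this
  intro i
  fin_cases i
  · have e : v 0 = (v 0 * γ 0 0 + v 1 * γ 1 0) * γ 1 1 - (v 0 * γ 0 1 + v 1 * γ 1 1) * γ 1 0 := by
      linear_combination (-(v 0)) * hdet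
    show (M : ℤ) ∣ v 0
    rw [e]
    exact dvd_sub (h0.mul_right _) (h1.mul_right _)
  · have e : v 1 = (v 0 * γ 0 1 + v 1 * γ 1 1) * γ 0 0 - (v 0 * γ 0 0 + v 1 * γ 1 0) * γ 0 1 := by
      linear_combination (-(v 1)) * hdet
    show (M : ℤ) ∣ v 1
    rw [e]
    exact dvd_sub (h1.mul_right _) (h0.mul_right _)

theorem vecMul_congr_of_mem_Gamma (v : Fin 2 → ℤ) {γ : SL(2, ℤ)} (hγ : γ ∈ CongruenceSubgroup.Gamma M) (i : Fin 2) :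
    (M : ℤ) ∣ (v ᵥ* (γ : Matrix (Fin 2) (Fin 2) ℤ)) i - v i := by
  rw [CongruenceSubgroup.Gamma_mem] at hγ
  obtain ⟨h00, h01, h10, h11⟩ := hγ
  have d00 : (M : ℤ) ∣ γ 0 0 - 1 := by
    rw [← ZMod.intCast_zmod_eq_zero_iff_dvd]; push_cast; rw [h00]; simp
  have d01 : (M : ℤ) ∣ γ 0 1 := by
    rw [← ZMod.intCast_zmod_eq_zero_iff_dvd]; exact h01
  have d10 : (M : ℤ) ∣ γ 1 0 := by
    rw [← ZMod.intCast_zmod_eq_zero_iff_dvd]; exact h10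
  have d11 : (M : ℤ) ∣ γ 1 1 - 1 := by
    rw [← ZMod.intCast_zmod_eq_zero_iff_dvd]; push_cast; rw [h11]; simp
  fin_cases i
  · simp only [Matrix.vecMul, dotProduct, Fin.sum_univ_two]
    have e : v 0 * γ 0 0 + v 1 * γ 1 0 - v 0 = v 0 * (γ 0 0 - 1) + v 1 * γ 1 0 := by ring
    show (M : ℤ) ∣ v 0 * γ 0 0 + v 1 * γ 1 0 - v 0
    rw [e]
    exact dvd_add (d00.mul_left _) (d10.mul_left _)
  · simp only [Matrix.vecMul, dotProduct, Fin.sum_univ_two]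
    have e : v 0 * γ 0 1 + v 1 * γ 1 1 - v 1 = v 0 * γ 0 1 + v 1 * (γ 1 1 - 1) := by ring
    show (M : ℤ) ∣ v 0 * γ 0 1 + v 1 * γ 1 1 - v 1
    rw [e]
    exact dvd_add (d01.mul_left _) (d11.mul_left _)

theorem isMF_Zf (hv : ¬ ∀ i, (M : ℤ) ∣ v i) : S20.IsMF (CongruenceSubgroup.Gamma M) 1 (Zf M v) where
  holo := mdiff_Zf hv
  inv γ hγ := by
    rw [Zf_slash]
    exact Zf_congr (vecMul_congr_of_mem_Gamma v hγ) (not_dvd_vecMul hv γ)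
  bdd g := by
    rw [Zf_slash]
    exact bdd_Zf (not_dvd_vecMul hv g)

end Fermat.Agent.S48.Z
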