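import Mathlib

/-!
# S48 / Z-COT : cotangent lemmas        [key S48/Z-COT, ~300 lines, MATHLIB ONLY, no project context]

Mathlib: `cot_series_rep (hz : x ∈ ℂ_ℤ) : π * cot (π * x) - 1 / x = ∑' n : ℕ+, (1 / (x - n) + 1 / (x + n))`, `summable_cotTerm`,
`Complex.cot_pi_eq_exp_ratio z : cot (π z) = (e + 1)/(I (1 - e))`, `e = exp (2πi z)`; `pi_mul_cot_pi_q_exp (z : ℍ)`.

* `hasSum_cot_sub`: the function `n ↦ 1/(u+n) - 1/(u'+n) = (u'-u)/((u+n)(u'+n))` is summable over `ℤ` (`O(n⁻²)`;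
  e.g. `EisensteinSeries.summable_inv_of_isBigO_rpow_inv`, `linear_inv_isBigO_right 1 u`-type lemmas, or comparison by hand).  Its sum:
  split `ℤ = {0} ∪ ℕ+ ∪ -ℕ+` (`tsum_int_eq_zero_add_tsum_pnat`, or `HasSum.of_nat_of_neg_add_one`/`HasSum.int_rec`):
  `[1/u - 1/u'] + ∑_{n ≥ 1} [(1/(u+n) + 1/(u-n)) - (1/(u'+n) + 1/(u'-n))]`, and use `cot_series_rep` twice (both series converge: `summable_cotTerm`).
* `hasSum_cot`: same with `1/(n:ℂ)` (`1/0 = 0`; the terms `1/n` and `1/(-n)` cancel): `1/z + ∑_{n≥1} (1/(z+n) + 1/(z-n))`.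
  Summability: `1/(z+n) - 1/n = -z/(n(z+n))` for `n ≠ 0`.
* `cot_of_im_pos`: `pi_mul_cot_pi_q_exp ⟨z, hz⟩` and `∑_{n≥0} e^n = 1 + ∑_{k} e^(k+1)` (`tsum_eq_zero_add`, geometric, `‖e‖ < 1`).
* `cot_of_im_neg`: `cot (π z) = - cot (π (-z))` (`Complex.cot_neg`/`cot` odd) and `cot_of_im_pos` for `-z`.
* `tendsto_cot_up`: `e_K = exp(2πi(z + Kτ)) = exp(2πi z) q^K → 0` (`‖q‖ < 1`), `π cot = π (e_K+1)/(I(1-e_K)) → π/I = -πi`.
* `tendsto_cot_down`: `cot(π(z - Kτ)) = -cot(π(-z + Kτ))`.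
-/

set_option autoImplicit false

open UpperHalfPlane hiding I
open Complex Filter
open scoped Real Topology Complex

noncomputable section

namespace Fermat.Agent.S48.Z

local notation "ℂ_ℤ" => Complex.integerComplement

theorem cotAux_summable (u u' : ℂ) : Summable fun n : ℤ ↦ ((u + n) * (u' + n))⁻¹ := by
  have h : Summable fun n : ℤ ↦ ((((1 : ℤ) : ℂ) * u + n) * (((1 : ℤ) : ℂ) * u' + n))⁻¹ := by
    apply EisensteinSeries.summable_inv_of_isBigO_rpow_inv (a := 2) (by norm_cast)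
    simpa [pow_two] using (EisensteinSeries.linear_inv_isBigO_right 1 u').mul
      (EisensteinSeries.linear_inv_isBigO_right 1 u)
  simpa using h

/-- a summable function on `ℤ` whose symmetric sums are known -/
theorem cotAux_hasSum {f : ℤ → ℂ} (hf : Summable f) {s : ℂ}
    (hs : HasSum (fun n : ℕ => f ((n : ℤ) + 1) + f (-((n : ℤ) + 1))) s) : HasSum f (f 0 + s) := by
  have h1 := hf.hasSum.nat_add_neg
  have h2 := (hasSum_nat_add_iff' 1).2 h1
  simp only [Finset.range_one, Finset.sum_singleton, Nat.cast_zero, neg_zero, Nat.cast_add,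
    Nat.cast_one] at h2
  have h3 := h2.unique hs
  have h4 : ∑' n, f n = f 0 + s := by
    rw [← h3]; ring
  rw [← h4]
  exact hf.hasSum

theorem cotAux_hasSum_cotTerm {x : ℂ} (hx : x ∈ ℂ_ℤ) :
    HasSum (fun n : ℕ => 1 / (x - (n + 1)) + 1 / (x + (n + 1))) (π * cot (π * x) - 1 / x) := by
  rw [cot_series_rep' hx]
  exact (summable_cotTerm hx).hasSum

theorem hasSum_cot_sub {u u' : ℂ} (hu : u ∈ ℂ_ℤ) (hu' : u' ∈ ℂ_ℤ) :
    HasSum (fun n : ℤ => 1 / (u + n) - 1 / (u' + n)) (π * cot (π * u) - π * cot (π * u')) := by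
  have hsum : Summable (fun n : ℤ => 1 / (u + n) - 1 / (u' + n)) := by
    refine ((cotAux_summable u u').mul_left (u' - u)).congr fun n => ?_
    have h1 := integerComplement_add_ne_zero hu n
    have h2 := integerComplement_add_ne_zero hu' n
    field_simp
    ring
  have h := cotAux_hasSum hsum (s := (π * cot (π * u) - 1 / u) - (π * cot (π * u') - 1 / u')) (by
    refine ((cotAux_hasSum_cotTerm hu).sub (cotAux_hasSum_cotTerm hu')).congr_fun fun n => ?_
    push_cast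
    ring)
  convert h using 1
  simp only [Int.cast_zero, add_zero]
  ring

theorem hasSum_cot {z : ℂ} (hz : z ∈ ℂ_ℤ) :
    HasSum (fun n : ℤ => 1 / (z + n) - 1 / (n : ℂ)) (π * cot (π * z)) := by
  have hsum : Summable (fun n : ℤ => 1 / (z + n) - 1 / (n : ℂ)) := by
    refine ((cotAux_summable z 0).mul_left (-z)).congr_cofinite ?_
    have hfin : ∀ᶠ n : ℤ in cofinite, n ≠ 0 := by
      rw [Filter.eventually_cofinite]
      simp
    filter_upwards [hfin] with n hn
    have h1 := integerComplement_add_ne_zero hz n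
    have h2 : (n : ℂ) ≠ 0 := Int.cast_ne_zero.2 hn
    rw [zero_add]
    field_simp
    ring
  have h := cotAux_hasSum hsum (s := π * cot (π * z) - 1 / z) (by
    refine (cotAux_hasSum_cotTerm hz).congr_fun fun n => ?_
    have h2 : ((n : ℂ) + 1) ≠ 0 := by exact_mod_cast Nat.succ_ne_zero n
    push_cast
    rw [one_div_neg_eq_neg_one_div]
    ring)
  convert h using 1
  simp

theorem cotAux_norm_exp_lt {z : ℂ} (hz : 0 < z.im) : ‖cexp (2 * π * I * z)‖ < 1 :=
  UpperHalfPlane.norm_exp_two_pi_I_lt_one ⟨z, hz⟩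

theorem cot_of_im_pos {z : ℂ} (hz : 0 < z.im) :
    π * cot (π * z) = -(π * I) - 2 * π * I * ∑' k : ℕ, cexp (2 * π * I * z) ^ (k + 1) := by
  have h1 := pi_mul_cot_pi_q_exp ⟨z, hz⟩
  change π * cot (π * z) = π * I - 2 * π * I * ∑' n : ℕ, cexp (2 * π * I * z) ^ n at h1
  have hs : Summable fun n : ℕ => cexp (2 * π * I * z) ^ n :=
    summable_geometric_of_norm_lt_one (cotAux_norm_exp_lt hz)
  rw [h1, hs.tsum_eq_zero_add, pow_zero]
  ring

theorem cotAux_cot_neg (z : ℂ) : cot (π * -z) = -cot (π * z) := by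
  rw [mul_neg, Complex.cot, Complex.cot, Complex.cos_neg, Complex.sin_neg, div_neg]

theorem cot_of_im_neg {z : ℂ} (hz : z.im < 0) :
    π * cot (π * z) = π * I + 2 * π * I * ∑' k : ℕ, cexp (-(2 * π * I * z)) ^ (k + 1) := by
  have h1 := cot_of_im_pos (z := -z) (by simpa using hz)
  rw [cotAux_cot_neg, mul_neg (2 * π * I) z] at h1
  have h2 : π * cot (π * z) = -(π * -cot (π * z)) := by ring
  rw [h2, h1]
  ring

theorem tendsto_cot_up (z : ℂ) (τ : ℍ) :
    Tendsto (fun K : ℕ => π * cot (π * (z + K * τ))) atTop (𝓝 (-(π * I))) := by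
  have hq : ‖cexp (2 * π * I * τ)‖ < 1 := UpperHalfPlane.norm_exp_two_pi_I_lt_one τ
  have he : Tendsto (fun K : ℕ => cexp (2 * π * I * (z + K * τ))) atTop (𝓝 0) := by
    have h1 : ∀ K : ℕ, cexp (2 * π * I * (z + K * τ)) =
        cexp (2 * π * I * z) * cexp (2 * π * I * τ) ^ K := by
      intro K
      rw [← Complex.exp_nat_mul, ← Complex.exp_add]
      congr 1
      ring
    simp only [h1]
    have := (tendsto_pow_atTop_nhds_zero_of_norm_lt_one hq).const_mul (cexp (2 * π * I * z))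
    rwa [mul_zero] at this
  have h2 : Tendsto (fun K : ℕ => (π : ℂ) * ((cexp (2 * π * I * (z + K * τ)) + 1) /
      (I * (1 - cexp (2 * π * I * (z + K * τ)))))) atTop (𝓝 (π * ((0 + 1) / (I * (1 - 0))))) := by
    refine Tendsto.const_mul _ (Tendsto.div (he.add_const 1)
      ((tendsto_const_nhds.sub he).const_mul I) ?_)
    simp
  have h3 : (π : ℂ) * ((0 + 1) / (I * (1 - 0))) = -(π * I) := by
    rw [zero_add, sub_zero, mul_one, one_div, Complex.inv_I]
    ring
  rw [h3] at h2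
  refine h2.congr fun K => ?_
  rw [Complex.cot_pi_eq_exp_ratio]

theorem tendsto_cot_down (z : ℂ) (τ : ℍ) :
    Tendsto (fun K : ℕ => π * cot (π * (z - K * τ))) atTop (𝓝 (π * I)) := by
  have h1 := (tendsto_cot_up (-z) τ).neg
  rw [neg_neg] at h1
  refine h1.congr fun K => ?_
  have h2 : z - K * τ = -(-z + K * τ) := by ring
  rw [h2, cotAux_cot_neg]
  ring

end Fermat.Agent.S48.Z
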