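import Mathlib

/-!
# S48 / layer Z : the weight one Eisenstein family.  Definitions (MATHLIB ONLY, no stub in this file)

Blueprint (helper21, owner of layer Z).  `τ ∈ ℍ`, lattice `Λ_τ = ℤτ + ℤ`, `L τ w = w 0 * τ + w 1`.

* `zetaW z τ = ∑_w (1/(z+w) - 1/w + z/w²)` : the Weierstrass zeta function.  The sum is over ALL `w : Fin 2 → ℤ`; with Lean's
  `1/0 = 0` the term `w = 0` is `1/z`.  Each term is `z²/(w²(z+w))`, so the sum is absolutely convergent (`Sum.lean`).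
* `EE z τ = zetaW z τ - z * G2 τ` (`G2` = Mathlib's `EisensteinSeries.G2`).  FACTS:
  (LAT)  `EE (z/j) (γ•τ) = j * EE z τ + 2πi c z`, `j = denom γ τ = cτ+d`  (lattice invariance + `G2_slash_action`)        [`Lat.lean`]
  (ITER) `EE z τ = lim_K ∑_{|m| ≤ K} π cot π(z + mτ)` for `z ∉ Λ_τ`                                                        [`Iter.lean`]
  (PER)  `EE (z+1) τ = EE z τ`, `EE (z+τ) τ = EE z τ - 2πi`                                                                [`Per.lean`]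
* `Zf M v τ = - EE (z_v) τ / (2πi) - v 0 / M`, `z_v = (v 0 * τ + v 1)/M`: weight one, `Zf M v ∣[1] γ = Zf M (v ᵥ* γ)`, depends only on
  `v mod M` (for `v ∉ M ℤ²`), and `Zf M v τ = ∑_n zc M v n * q_M^n`, `q_M = e(τ/M)`                                         [`QExp.lean`]
-/

set_option autoImplicit false

open UpperHalfPlane hiding I
open Complex EisensteinSeries
open scoped Real

noncomputable section

namespace Fermat.Agent.S48.Z

/-- the lattice point `w 0 * τ + w 1` -/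
def L (τ : ℍ) (w : Fin 2 → ℤ) : ℂ := (w 0 : ℂ) * τ + w 1

/-- `1/(z+w) - 1/w + z/w²` -/
def zetaTerm (z : ℂ) (τ : ℍ) (w : Fin 2 → ℤ) : ℂ :=
  1 / (z + L τ w) - 1 / L τ w + z / L τ w ^ 2

/-- the Weierstrass zeta function of the lattice `ℤτ + ℤ` -/
def zetaW (z : ℂ) (τ : ℍ) : ℂ := ∑' w : Fin 2 → ℤ, zetaTerm z τ w

/-- `ζ_W(z;τ) - z G₂(τ)` -/
def EE (z : ℂ) (τ : ℍ) : ℂ := zetaW z τ - z * G2 τ

/-- the division point `(v 0 * τ + v 1)/M` -/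
def zpt (M : ℕ) (v : Fin 2 → ℤ) (τ : ℍ) : ℂ := L τ v / M

/-- the weight one Eisenstein series attached to `v ∈ ℤ² ∖ Mℤ²` (normalised) -/
def Zf (M : ℕ) (v : Fin 2 → ℤ) (τ : ℍ) : ℂ :=
  -(EE (zpt M v τ) τ) / (2 * π * I) - (v 0 : ℂ) / M

/-- `e(j/M)` -/
def ez (M : ℕ) (j : ℤ) : ℂ := cexp (2 * π * I * j / M)

/-- the constant term of `Zf M v` -/
def zc0 (M : ℕ) (v : Fin 2 → ℤ) : ℂ :=
  if (M : ℤ) ∣ v 0 then (1 + ez M (v 1)) / (2 * (1 - ez M (v 1)))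
  else 1 / 2 - ((v 0 % (M : ℤ) : ℤ) : ℂ) / M

/-- the coefficient of `x^(d k)` in the double series of `Zf M v` -/
def zcc (M : ℕ) (v : Fin 2 → ℤ) (d k : ℕ) : ℂ :=
  (if (M : ℤ) ∣ (d : ℤ) - v 0 then ez M ((k : ℤ) * v 1) else 0) -
    (if (M : ℤ) ∣ (d : ℤ) + v 0 then ez M (-((k : ℤ) * v 1)) else 0)

/-- the coefficients of `Zf M v` in `q_M = e(τ/M)` -/
def zc (M : ℕ) (v : Fin 2 → ℤ) (n : ℕ) : ℂ :=
  if n = 0 then zc0 M v else ∑ d ∈ n.divisors, zcc M v d (n / d)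

/-- `Y_a = ∑_{b mod M} Zf M (a,b)` -/
def Yf (M : ℕ) (a : ℤ) (τ : ℍ) : ℂ := ∑ b ∈ Finset.range M, Zf M ![a, (b : ℤ)] τ

/-- `[d ≡ a] - [d ≡ -a]` -/
def hh (M : ℕ) (a : ℤ) (d : ℕ) : ℤ :=
  (if (M : ℤ) ∣ (d : ℤ) - a then 1 else 0) - (if (M : ℤ) ∣ (d : ℤ) + a then 1 else 0)

/-- the coefficients of `Y_a` in `q = e(τ)` -/
def yc (M : ℕ) (a : ℤ) (n : ℕ) : ℂ :=
  if n = 0 then (M : ℂ) / 2 - ((a % (M : ℤ) : ℤ) : ℂ) else (M : ℂ) * ((∑ d ∈ n.divisors, hh M a d : ℤ) : ℂ)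

end Fermat.Agent.S48.Z
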