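import Fermat.Agent.S48.Z.Sum
import Fermat.Agent.S48.Z.Cot

/-!
# S48 / Z-ITER : the zeta function as an iterated cotangent sum       [key S48/Z-ITER, ~350 lines, MATHLIB ONLY]

`tendsto_cot_sum`: for `z ∉ Λ_τ`:  `∑_{|m| ≤ K} π cot π(z + mτ) → EE z τ = zetaW z τ - z G2 τ`.

PROOF.  Put `t(m,n) = zetaTerm z τ ![m,n] = 1/(z+mτ+n) - 1/(mτ+n) + z/(mτ+n)²`.
(1) `summable_zetaTerm` + `(finTwoArrowEquiv ℤ).symm.summable_iff` : `(m,n) ↦ t(m,n)` is summable on `ℤ × ℤ`; so (`Summable.prod_factor`, `Summable.prod`,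
    `Summable.tsum_prod'`/`HasSum.prod_fiberwise`) `R m := ∑' n, t(m,n)` is summable over `m : ℤ` with sum `zetaW z τ`.
(2) `row_eq`: `R m = π cot π(z+mτ) - cc m + z * e2Summand m τ`, where `cc m = π cot(π m τ)` for `m ≠ 0`, `cc 0 = 0`.
    `e2Summand m τ = ∑' n, eisSummand 2 ![m,n] τ = ∑' n, ((mτ+n)^2)⁻¹` (`EisensteinSeries.e2Summand`, `e2Summand_summable`, `eisSummand`, `zpow_neg`).
    `m ≠ 0`: `hasSum_cot_sub` with `u = z+mτ`, `u' = mτ` (both in `ℂ_ℤ`: `u = -n` contradicts `hz ![m,n]`... precisely `z + L τ ![m, n] ≠ 0`; `mτ` has nonzero imaginary part).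
    `m = 0`: `hasSum_cot` (`z ∈ ℂ_ℤ` by `hz ![0,n]`).  Add the two `HasSum`s (`HasSum.add`, `HasSum.mul_left`), `HasSum.tsum_eq`.
(3) `cc` is odd, so `∑_{m ∈ Icc (-K) K} cc m = 0` (`Finset.sum_involution` or: the sum equals its negative by `Finset.sum_bij`/`Finset.sum_equiv (Equiv.neg ℤ)`).
(4) `∑_{m ∈ Icc (-K) K} R m → zetaW z τ` (unconditional `HasSum` composed with `K ↦ Icc (-K) K → atTop`; in the SummationFilter API:
    `HasSum.mono`/`(hasSum).hasSum_symmetricIcc..`, see `Mathlib/Topology/Algebra/InfiniteSum/ConditionalInt.lean`, `SummationFilter.symmetricIcc`, `tsum_eq_of_summable_unconditional`).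
    `∑_{m ∈ Icc (-K) K} e2Summand m τ → G2 τ`: `EisensteinSeries.hasSum_e2Summand_symmetricIcc`, `G2_eq_tsum_cexp` (the value is `G2 τ`), unfold as in
    the proof of `hasSum_e2Summand_symmetricIcc` (`simp [HasSum, symmetricIcc_eq_map_Icc_nat, Function.comp_def]`).
(5) `∑_{Icc} π cot π(z+mτ) = ∑_{Icc} R m + ∑_{Icc} cc m - z ∑_{Icc} e2Summand m τ → zetaW z τ - z G2 τ`.
-/

set_option autoImplicit false

open UpperHalfPlane hiding I
open Complex EisensteinSeries Filter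
open scoped Real Topology

noncomputable section

namespace Fermat.Agent.S48.Z

/-- `π cot (π m τ)`, `0` for `m = 0` -/
def cc (τ : ℍ) (m : ℤ) : ℂ := if m = 0 then 0 else π * cot (π * (m * τ))

theorem iterAux_L (τ : ℍ) (m n : ℤ) : L τ ![m, n] = (m : ℂ) * τ + n := by
  simp [L]

theorem iterAux_hasSum_e2 (τ : ℍ) (m : ℤ) :
    HasSum (fun n : ℤ => 1 / ((m : ℂ) * τ + n) ^ 2) (e2Summand m τ) := by
  have h := (e2Summand_summable m τ).hasSum
  refine h.congr_fun fun n => ?_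
  simp [eisSummand, zpow_neg]

theorem row_eq {z : ℂ} {τ : ℍ} (hz : ∀ w : Fin 2 → ℤ, z + L τ w ≠ 0) (m : ℤ) :
    ∑' n : ℤ, zetaTerm z τ ![m, n] = π * cot (π * (z + m * τ)) - cc τ m + z * e2Summand m τ := by
  have hu : z + m * τ ∈ Complex.integerComplement := by
    rw [Complex.mem_integerComplement_iff]
    rintro ⟨n, hn⟩
    apply hz ![m, -n]
    rw [iterAux_L, Int.cast_neg, hn]
    ring
  have h1 : HasSum (fun n : ℤ => 1 / (z + m * τ + n) - 1 / ((m : ℂ) * τ + n))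
      (π * cot (π * (z + m * τ)) - cc τ m) := by
    by_cases hm : m = 0
    · subst hm
      have h2 := hasSum_cot hu
      simp only [cc, if_true, sub_zero]
      refine h2.congr_fun fun n => ?_
      simp
    · have hu' : (m : ℂ) * τ ∈ Complex.integerComplement := by
        rw [Complex.mem_integerComplement_iff]
        rintro ⟨n, hn⟩
        have h3 := congrArg Complex.im hn
        simp only [Complex.intCast_im, Complex.mul_im, Complex.intCast_re, zero_mul, add_zero,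
          UpperHalfPlane.coe_im] at h3
        rcases mul_eq_zero.1 h3.symm with h4 | h4
        · exact hm (by exact_mod_cast h4)
        · exact τ.im_pos.ne' h4
      simp only [cc, if_neg hm]
      exact hasSum_cot_sub hu hu'
  have h2 := h1.add ((iterAux_hasSum_e2 τ m).mul_left z)
  rw [← h2.tsum_eq]
  refine tsum_congr fun n => ?_
  unfold zetaTerm
  rw [iterAux_L]
  ring

theorem iterAux_cc_neg (τ : ℍ) (m : ℤ) : cc τ (-m) = -cc τ m := by
  unfold cc
  by_cases hm : m = 0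
  · simp [hm]
  · rw [if_neg hm, if_neg (neg_ne_zero.2 hm)]
    have : ((-m : ℤ) : ℂ) * (τ : ℂ) = -((m : ℂ) * τ) := by push_cast; ring
    rw [this, cotAux_cot_neg]
    ring

theorem sum_cc (τ : ℍ) (K : ℕ) : ∑ m ∈ Finset.Icc (-(K : ℤ)) K, cc τ m = 0 := by
  have h : ∑ m ∈ Finset.Icc (-(K : ℤ)) K, cc τ m = ∑ m ∈ Finset.Icc (-(K : ℤ)) K, cc τ (-m) := by
    refine Finset.sum_equiv (Equiv.neg ℤ) (fun i => ?_) (fun i _ => ?_)
    · simp only [Finset.mem_Icc, Equiv.neg_apply]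
      constructor <;> rintro ⟨h1, h2⟩ <;> constructor <;> linarith
    · simp
  simp only [iterAux_cc_neg, Finset.sum_neg_distrib] at h
  exact self_eq_neg.1 h

theorem iterAux_tendsto {f : ℤ → ℂ} {a : ℂ} (h : HasSum f a) :
    Tendsto (fun K : ℕ => ∑ m ∈ Finset.Icc (-(K : ℤ)) K, f m) atTop (𝓝 a) :=
  SummationFilter.hasSum_symmetricIcc_iff.1 (h.mono_left (SummationFilter.symmetricIcc ℤ).le_atTop)

theorem tendsto_row_sum (z : ℂ) (τ : ℍ) :
    Tendsto (fun K : ℕ => ∑ m ∈ Finset.Icc (-(K : ℤ)) K, ∑' n : ℤ, zetaTerm z τ ![m, n]) atTop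
      (𝓝 (zetaW z τ)) := by
  apply iterAux_tendsto
  have hs : Summable (fun p : ℤ × ℤ => zetaTerm z τ ![p.1, p.2]) :=
    (finTwoArrowEquiv ℤ).symm.summable_iff.2 (summable_zetaTerm z τ)
  have h1 : HasSum (fun p : ℤ × ℤ => zetaTerm z τ ![p.1, p.2]) (zetaW z τ) := by
    have := (finTwoArrowEquiv ℤ).symm.hasSum_iff.2 (summable_zetaTerm z τ).hasSum
    exact this
  exact h1.prod_fiberwise fun m => (hs.prod_factor m).hasSum

theorem tendsto_e2Summand_sum (τ : ℍ) :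
    Tendsto (fun K : ℕ => ∑ m ∈ Finset.Icc (-(K : ℤ)) K, e2Summand m τ) atTop (𝓝 (G2 τ)) := by
  rw [G2_eq_tsum_cexp]
  exact SummationFilter.hasSum_symmetricIcc_iff.1 (hasSum_e2Summand_symmetricIcc τ)

theorem tendsto_cot_sum {z : ℂ} {τ : ℍ} (hz : ∀ w : Fin 2 → ℤ, z + L τ w ≠ 0) :
    Tendsto (fun K : ℕ => ∑ m ∈ Finset.Icc (-(K : ℤ)) K, π * cot (π * (z + m * τ))) atTop
      (𝓝 (EE z τ)) := by
  have h := (tendsto_row_sum z τ).sub ((tendsto_e2Summand_sum τ).const_mul z)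
  refine h.congr fun K => ?_
  simp only [row_eq hz, Finset.sum_add_distrib, Finset.sum_sub_distrib, sum_cc, ← Finset.mul_sum]
  ring

end Fermat.Agent.S48.Z
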