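import Fermat.Agent.S48.Z.Iter

/-!
# S48 / Z-QA : the `q`-series of `EE z τ` for `0 ≤ Im z < Im τ`       [key S48/Z-QA, ~300 lines, MATHLIB ONLY]

`x = e(z) = exp(2πi z)`, `x' = exp(-2πi z) = x⁻¹`, `q = exp(2πi τ)`.   `‖x‖ = exp(-2π Im z) ≤ 1`, `‖x'‖ ‖q‖ = exp(-2π(Im τ - Im z)) < 1`, `‖q‖ < 1`.

* `ne_of_strip`: `z + mτ + n = 0` ⇒ `Im z = -m Im τ`, with `0 ≤ Im z < Im τ` this forces `m = 0`, then `z = -n ∉ ℂ_ℤ`.
* `summable_strip`: `‖(x^k - x'^k) q^(mk)‖ ≤ ‖q‖^(mk) + (‖x'‖‖q‖)^k ‖q‖^((m-1)k) ≤ 2 ρ^(k) ρ^((m-1)k)...`: take `ρ = max ‖q‖ (‖x'‖‖q‖) < 1`; then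
  `‖x'^k q^(mk)‖ = (‖x'‖‖q‖)^k ‖q‖^((m-1)k) ≤ ρ^k ‖q‖^((m-1) k)`.  A clean way: `‖x'‖ ≤ ‖q‖^(-θ)` with `θ = Im z/Im τ < 1`, so everything is `≤ 2 r^(mk)`
  with `r = ‖q‖^(1-θ) < 1` (`m - θ ≥ (1-θ) m` for `m ≥ 1`), and `summable_prod_mul_pow 0` (Mathlib, `𝕜 = ℝ` or `ℂ`) gives `Summable fun p : ℕ+ × ℕ+ => r^(p.1 p.2)`.
* `pair_eq`: for `m ≥ 1`: `Im (z+mτ) > 0`, `Im (z-mτ) < 0`; `cot_of_im_pos`, `cot_of_im_neg`:
  `π cot π(z+mτ) + π cot π(z-mτ) = -2πi ∑_k [(x q^m)^(k+1) - (x' q^m)^(k+1)]`  (the `∓πi` cancel; `exp(2πi(z+mτ)) = x q^m`, `exp(-2πi(z-mτ)) = x' q^m`).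
* `EE_eq_of_strip`: `∑_{m ∈ Icc (-K) K} π cot π(z+mτ) = π cot πz + ∑_{m=1}^K (π cot π(z+mτ) + π cot π(z-mτ))` (induction on `K`, `Finset.Icc` over `ℤ`: e.g.
  `Finset.sum_Icc_succ_top`, or prove `Icc (-(K+1)) (K+1) = insert (K+1) (insert (-(K+1)) (Icc (-K) K))`).  The right side tends to
  `π cot πz - 2πi ∑'_{(m,k)}` : `summable_strip.prod`/`HasSum.prod_fiberwise` gives `HasSum (fun m : ℕ+ => ∑' k : ℕ+, ..)`, hence the partial sums over `m = 1..K` converge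
  (`HasSum.tendsto_sum_nat` after `Equiv.pnatEquivNat`/`tsum_pnat_eq_tsum_succ`).  Conclude with `tendsto_cot_sum` and `tendsto_nhds_unique`.
-/

set_option autoImplicit false

open UpperHalfPlane hiding I
open Complex EisensteinSeries Filter
open scoped Real Topology

noncomputable section

namespace Fermat.Agent.S48.Z

local notation "ℂ_ℤ" => Complex.integerComplement

theorem ne_of_strip {z : ℂ} {τ : ℍ} (hz : z ∈ ℂ_ℤ) (h0 : 0 ≤ z.im) (h1 : z.im < τ.im)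
    (w : Fin 2 → ℤ) : z + L τ w ≠ 0 := by
  intro h
  have him : z.im + (w 0 : ℝ) * τ.im = 0 := by
    have := congrArg Complex.im h
    simpa [L] using this
  have hτ : 0 < τ.im := τ.im_pos
  have hw0 : w 0 = 0 := by
    have h2 : (-1 : ℝ) < (w 0 : ℝ) := by
      by_contra hcon
      rw [not_lt] at hcon
      nlinarith
    have h3 : (w 0 : ℝ) < 1 := by
      by_contra hcon
      rw [not_lt] at hcon
      nlinarith
    have h2' : (-1 : ℤ) < w 0 := by exact_mod_cast h2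
    have h3' : w 0 < 1 := by exact_mod_cast h3
    omega
  apply hz
  refine ⟨- w 1, ?_⟩
  rw [L, hw0] at h
  push_cast
  linear_combination -h

theorem stripAux_norm_exp (z : ℂ) : ‖cexp (2 * π * I * z)‖ = Real.exp (-(2 * π * z.im)) := by
  rw [Complex.norm_exp]
  congr 1
  simp

theorem stripAux_norm_exp' (z : ℂ) : ‖cexp (-(2 * π * I * z))‖ = Real.exp (2 * π * z.im) := by
  rw [Complex.norm_exp]
  congr 1
  simp

theorem stripAux_bound {z : ℂ} {τ : ℍ} (h0 : 0 ≤ z.im) (m k : ℕ+) :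
    ‖(cexp (2 * π * I * z) ^ (k : ℕ) - cexp (-(2 * π * I * z)) ^ (k : ℕ)) *
      cexp (2 * π * I * τ) ^ ((m : ℕ) * (k : ℕ))‖ ≤
      2 * Real.exp (-(2 * π * (τ.im - z.im))) ^ ((m : ℕ) * (k : ℕ)) := by
  have hm : (1 : ℝ) ≤ (m : ℕ) := by exact_mod_cast m.2
  have hk : (0 : ℝ) ≤ (k : ℕ) := Nat.cast_nonneg _
  have hpi := Real.pi_pos
  rw [norm_mul, norm_pow, stripAux_norm_exp]
  have h1 : ‖cexp (2 * π * I * z) ^ (k : ℕ) - cexp (-(2 * π * I * z)) ^ (k : ℕ)‖ ≤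
      2 * Real.exp (2 * π * z.im) ^ (k : ℕ) := by
    refine (norm_sub_le _ _).trans ?_
    rw [norm_pow, norm_pow, stripAux_norm_exp, stripAux_norm_exp']
    have h3 : Real.exp (-(2 * π * z.im)) ^ (k : ℕ) ≤ Real.exp (2 * π * z.im) ^ (k : ℕ) :=
      pow_le_pow_left₀ (Real.exp_pos _).le (Real.exp_le_exp.2 (by nlinarith)) _
    linarith
  refine (mul_le_mul_of_nonneg_right h1 (by positivity)).trans ?_
  rw [mul_assoc]
  refine mul_le_mul_of_nonneg_left ?_ (by norm_num)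
  rw [← Real.exp_nat_mul, ← Real.exp_nat_mul, ← Real.exp_nat_mul, ← Real.exp_add, Real.exp_le_exp]
  push_cast
  have : (0:ℝ) ≤ ((m : ℕ) - 1 : ℝ) * (k : ℕ) * (2 * π * z.im) := by
    have : (0:ℝ) ≤ ((m : ℕ) - 1 : ℝ) := by linarith
    positivity
  have e : ((τ : ℂ)).im = τ.im := rfl
  rw [e]
  nlinarith

theorem summable_strip {z : ℂ} {τ : ℍ} (h0 : 0 ≤ z.im) (h1 : z.im < τ.im) :
    Summable (fun p : ℕ+ × ℕ+ => (cexp (2 * π * I * z) ^ (p.2 : ℕ) - cexp (-(2 * π * I * z)) ^ (p.2 : ℕ)) *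
      cexp (2 * π * I * τ) ^ ((p.1 : ℕ) * (p.2 : ℕ))) := by
  have hr : ‖Real.exp (-(2 * π * (τ.im - z.im)))‖ < 1 := by
    rw [Real.norm_eq_abs, abs_of_pos (Real.exp_pos _), Real.exp_lt_one_iff]
    have := Real.pi_pos
    nlinarith
  have h2 := (summable_prod_mul_pow (𝕜 := ℝ) 0 hr).mul_left 2
  refine Summable.of_norm_bounded h2 fun p => ?_
  simpa using stripAux_bound h0 p.1 p.2


theorem stripAux_exp_add (z : ℂ) (τ : ℍ) (m : ℕ) :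
    cexp (2 * π * I * (z + m * τ)) = cexp (2 * π * I * z) * cexp (2 * π * I * τ) ^ m := by
  rw [← Complex.exp_nat_mul, ← Complex.exp_add]
  congr 1
  ring

theorem stripAux_exp_sub (z : ℂ) (τ : ℍ) (m : ℕ) :
    cexp (-(2 * π * I * (z - m * τ))) = cexp (-(2 * π * I * z)) * cexp (2 * π * I * τ) ^ m := by
  rw [← Complex.exp_nat_mul, ← Complex.exp_add]
  congr 1
  ring

theorem pair_eq {z : ℂ} {τ : ℍ} (h0 : 0 ≤ z.im) (h1 : z.im < τ.im) (m : ℕ+) :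
    π * cot (π * (z + (m : ℕ) * τ)) + π * cot (π * (z - (m : ℕ) * τ)) =
      -(2 * π * I) * ∑' k : ℕ+, (cexp (2 * π * I * z) ^ (k : ℕ) - cexp (-(2 * π * I * z)) ^ (k : ℕ)) *
        cexp (2 * π * I * τ) ^ ((m : ℕ) * (k : ℕ)) := by
  have hm : (1 : ℝ) ≤ (m : ℕ) := by exact_mod_cast m.2
  have hτ : 0 < τ.im := τ.im_pos
  have hpi := Real.pi_pos
  have e1 : (z + (m : ℕ) * (τ : ℂ)).im = z.im + (m : ℕ) * τ.im := by simp
  have e2 : (z - (m : ℕ) * (τ : ℂ)).im = z.im - (m : ℕ) * τ.im := by simp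
  have hp : 0 < (z + (m : ℕ) * (τ : ℂ)).im := by rw [e1]; nlinarith
  have hn : (z - (m : ℕ) * (τ : ℂ)).im < 0 := by rw [e2]; nlinarith
  have n1 : ‖cexp (2 * π * I * (z + (m : ℕ) * τ))‖ < 1 := by
    rw [stripAux_norm_exp, Real.exp_lt_one_iff]
    nlinarith
  have n2 : ‖cexp (-(2 * π * I * (z - (m : ℕ) * τ)))‖ < 1 := by
    rw [stripAux_norm_exp', Real.exp_lt_one_iff]
    nlinarith
  have s1 : Summable fun k : ℕ => cexp (2 * π * I * (z + (m : ℕ) * τ)) ^ (k + 1) :=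
    (summable_nat_add_iff 1).2 (summable_geometric_of_norm_lt_one n1)
  have s2 : Summable fun k : ℕ => cexp (-(2 * π * I * (z - (m : ℕ) * τ))) ^ (k + 1) :=
    (summable_nat_add_iff 1).2 (summable_geometric_of_norm_lt_one n2)
  rw [cot_of_im_pos hp, cot_of_im_neg hn,
    tsum_pnat_eq_tsum_succ (f := fun k : ℕ => (cexp (2 * π * I * z) ^ k -
      cexp (-(2 * π * I * z)) ^ k) * cexp (2 * π * I * τ) ^ ((m : ℕ) * k))]
  have e3 : ∀ k : ℕ, (cexp (2 * π * I * z) ^ (k + 1) - cexp (-(2 * π * I * z)) ^ (k + 1)) *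
      cexp (2 * π * I * τ) ^ ((m : ℕ) * (k + 1)) =
      cexp (2 * π * I * (z + (m : ℕ) * τ)) ^ (k + 1) -
        cexp (-(2 * π * I * (z - (m : ℕ) * τ))) ^ (k + 1) := by
    intro k
    rw [stripAux_exp_add, stripAux_exp_sub, mul_pow, mul_pow, ← pow_mul]
    ring
  rw [tsum_congr e3, s1.tsum_sub s2]
  ring

theorem stripAux_sum (f : ℤ → ℂ) (K : ℕ) :
    ∑ m ∈ Finset.Icc (-(K : ℤ)) K, f m =
      f 0 + ∑ m ∈ Finset.range K, (f ((m + 1 : ℕ) : ℤ) + f (-((m + 1 : ℕ) : ℤ))) := by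
  induction K with
  | zero => simp
  | succ K ih =>
    have := Finset.sum_Icc_succ_eq_add_endpoints f (N := K)
    rw [Finset.sum_range_succ, ← add_assoc, ← ih]
    push_cast
    rw [this]
    ring

theorem EE_eq_of_strip {z : ℂ} {τ : ℍ} (hz : z ∈ ℂ_ℤ) (h0 : 0 ≤ z.im) (h1 : z.im < τ.im) :
    EE z τ = π * cot (π * z) - 2 * π * I *
      ∑' p : ℕ+ × ℕ+, (cexp (2 * π * I * z) ^ (p.2 : ℕ) - cexp (-(2 * π * I * z)) ^ (p.2 : ℕ)) *
        cexp (2 * π * I * τ) ^ ((p.1 : ℕ) * (p.2 : ℕ)) := by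
  have hs := summable_strip h0 h1
  refine tendsto_nhds_unique (tendsto_cot_sum (ne_of_strip hz h0 h1)) ?_
  -- the rows
  set R : ℕ+ → ℂ := fun m => ∑' k : ℕ+, (cexp (2 * π * I * z) ^ (k : ℕ) -
    cexp (-(2 * π * I * z)) ^ (k : ℕ)) * cexp (2 * π * I * τ) ^ ((m : ℕ) * (k : ℕ)) with hR
  have hsum : HasSum R (∑' p : ℕ+ × ℕ+, (cexp (2 * π * I * z) ^ (p.2 : ℕ) -
      cexp (-(2 * π * I * z)) ^ (p.2 : ℕ)) * cexp (2 * π * I * τ) ^ ((p.1 : ℕ) * (p.2 : ℕ))) :=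
    hs.hasSum.prod_fiberwise fun m => (hs.prod_factor m).hasSum
  have hsum' : HasSum (fun m : ℕ => R m.succPNat) (∑' p : ℕ+ × ℕ+, (cexp (2 * π * I * z) ^ (p.2 : ℕ) -
      cexp (-(2 * π * I * z)) ^ (p.2 : ℕ)) * cexp (2 * π * I * τ) ^ ((p.1 : ℕ) * (p.2 : ℕ))) :=
    (Equiv.pnatEquivNat.symm.hasSum_iff).2 hsum
  have ht := (hsum'.tendsto_sum_nat.const_mul (-(2 * π * I))).const_add (π * cot (π * z))
  have e : ∀ K : ℕ, ∑ m ∈ Finset.Icc (-(K : ℤ)) K, π * cot (π * (z + m * τ)) =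
      π * cot (π * z) + -(2 * π * I) * ∑ m ∈ Finset.range K, R m.succPNat := by
    intro K
    rw [stripAux_sum (fun m : ℤ => π * cot (π * (z + m * τ))), Finset.mul_sum]
    congr 1
    · simp
    · refine Finset.sum_congr rfl fun m _ => ?_
      rw [hR, ← pair_eq h0 h1 m.succPNat]
      simp only [Nat.succPNat_coe, Nat.succ_eq_add_one]
      push_cast
      ring_nf
  rw [show (fun K : ℕ => ∑ m ∈ Finset.Icc (-(K : ℤ)) K, π * cot (π * (z + m * τ))) = _ from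
    funext e]
  convert ht using 2
  ring

end Fermat.Agent.S48.Z
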