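import Fermat.Agent.S48.Z.Defs

/-!
# S48 / Z-SUM : absolute convergence of the Weierstrass zeta series      [key S48/Z-SUM, ~150 lines, MATHLIB ONLY]

`zetaTerm_eq`: if `L τ w ≠ 0` and `z + L τ w ≠ 0` then `1/(z+w) - 1/w + z/w² = z²/(w²(z+w))` (`field_simp; ring`).

`summable_zetaTerm` (for EVERY `z`, no hypothesis): use `EisensteinSeries.summable_of_isBigO_rpow_norm (a := 3)`.
`(fun w => (L τ w)⁻¹) =O[cofinite] (fun w => ‖w‖⁻¹)` is `EisensteinSeries.isBigO_linear_add_const_vec τ 0 0` (up to `simp [L]`).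
For `(z + L τ w)⁻¹`: `‖L τ w‖ → ∞` along `cofinite` (from `‖w‖⁻¹`-bound: `‖w‖ ≤ C ‖L τ w‖`, and `tendsto_norm_cofinite_atTop`/
`EisensteinSeries.isLittleO_const_left_of_properSpace_of_discreteTopology`), so eventually `‖L τ w‖ ≥ 2‖z‖`, hence
`‖z + L τ w‖ ≥ ‖L τ w‖/2` and `‖(z + L τ w)⁻¹‖ ≤ 2 ‖(L τ w)⁻¹‖`.  Eventually also `L τ w ≠ 0`, `z + L τ w ≠ 0`, so `zetaTerm_eq` applies:
`zetaTerm z τ w = z² * (L⁻¹)² * (z+L)⁻¹ = O(‖w‖⁻³)`.
(Lower bound for `L`: `EisensteinSeries.summand_bound`, `r_pos`, or invert the `IsBigO` above.)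
-/

set_option autoImplicit false

open UpperHalfPlane hiding I
open Complex EisensteinSeries Filter Asymptotics
open scoped Real Topology

noncomputable section

namespace Fermat.Agent.S48.Z

theorem zetaTerm_eq {z : ℂ} {τ : ℍ} {w : Fin 2 → ℤ} (h1 : L τ w ≠ 0) (h2 : z + L τ w ≠ 0) :
    zetaTerm z τ w = z ^ 2 / (L τ w ^ 2 * (z + L τ w)) := by
  unfold zetaTerm
  field_simp
  ring

theorem L_eq_zero_iff {τ : ℍ} {w : Fin 2 → ℤ} : L τ w = 0 ↔ w = 0 := by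
  constructor
  · intro h
    by_contra hw
    have h1 := r_mul_max_le τ hw
    have h2 : ‖(w 0 : ℂ) * (τ : ℂ) + w 1‖ = 0 := by
      rw [norm_eq_zero]
      exact h
    rw [h2] at h1
    have h3 : 0 < r τ * ‖w‖ := mul_pos (r_pos τ) (norm_pos_iff.2 hw)
    linarith
  · rintro rfl
    simp [L]

theorem summable_zetaTerm (z : ℂ) (τ : ℍ) : Summable (zetaTerm z τ) := by
  apply summable_of_isBigO_rpow_norm (a := 3) (by norm_num)
  have hr := r_pos τ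
  have hev : ∀ᶠ w : Fin 2 → ℤ in cofinite, 2 * ‖z‖ / r τ + 1 ≤ ‖w‖ :=
    (tendsto_norm_comp_cofinite_atTop_of_isClosedEmbedding
      (Topology.IsClosedEmbedding.id (X := Fin 2 → ℤ))).eventually_ge_atTop _
  refine IsBigO.of_bound (2 * ‖z‖ ^ 2 / r τ ^ 3) ?_
  filter_upwards [hev] with w hw
  have hz0 : 0 ≤ ‖z‖ := norm_nonneg z
  have hwpos : 0 < ‖w‖ := by
    have : 0 ≤ 2 * ‖z‖ / r τ := by positivity
    linarith
  have hw0 : w ≠ 0 := norm_pos_iff.1 hwpos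
  have hL : r τ * ‖w‖ ≤ ‖L τ w‖ := r_mul_max_le τ hw0
  have h2z : 2 * ‖z‖ ≤ r τ * ‖w‖ := by
    have h1 : 2 * ‖z‖ / r τ ≤ ‖w‖ := by linarith
    rw [div_le_iff₀ hr] at h1
    linarith
  have hrw : 0 < r τ * ‖w‖ := mul_pos hr hwpos
  have hzL : r τ * ‖w‖ / 2 ≤ ‖z + L τ w‖ := by
    have h1 : ‖L τ w‖ - ‖z‖ ≤ ‖z + L τ w‖ := by
      have := norm_sub_norm_le (L τ w) (-z)
      rw [norm_neg, sub_neg_eq_add, add_comm] at this
      exact this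
    linarith
  have hL0 : L τ w ≠ 0 := by
    rw [← norm_pos_iff]
    linarith
  have hzL0 : z + L τ w ≠ 0 := by
    rw [← norm_pos_iff]
    linarith
  rw [zetaTerm_eq hL0 hzL0, norm_div, norm_mul, norm_pow, norm_pow, norm_inv,
    Real.norm_of_nonneg (by positivity), Real.rpow_ofNat]
  have hden : (r τ * ‖w‖) ^ 2 * (r τ * ‖w‖ / 2) ≤ ‖L τ w‖ ^ 2 * ‖z + L τ w‖ := by
    gcongr
  calc ‖z‖ ^ 2 / (‖L τ w‖ ^ 2 * ‖z + L τ w‖) ≤ ‖z‖ ^ 2 / ((r τ * ‖w‖) ^ 2 * (r τ * ‖w‖ / 2)) := by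
        gcongr
    _ = 2 * ‖z‖ ^ 2 / r τ ^ 3 * (‖w‖ ^ 3)⁻¹ := by
        field_simp

end Fermat.Agent.S48.Z
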