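import Fermat.Agent.S48.Z.Fam

/-!
# S48 / Z-YA, Z-YB : `Y_a = ∑_{b mod M} Zf M (a,b)`

## [key S48/Z-YA, ~300 lines] : transformation under `Γ₀(M)`   (`sum_Zf_reindex`, `Yf_congr`, `Yf_slash`, `mdiff_Yf`, `bdd_Yf_slash`)
`M ∤ a` throughout, so `![a,b] ∉ M ℤ²`.
* `sum_Zf_reindex`: for `u, t : ℤ` with `u` prime to `M`: `∑_{b < M} Zf M ![a, t + b u] = ∑_{b < M} Zf M ![a, b]`.  `Zf M ![a, x]` only depends on `x mod M` (`Zf_congr`), so define
  `F : ZMod M → (ℍ → ℂ)`, `F x = Zf M ![a, x.val]` (or `x.cast`); `Zf M ![a, x] = F (x : ZMod M)`; `∑_{b ∈ range M} F (b : ZMod M) = ∑_{x : ZMod M} F x`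
  (`Finset.sum_bij`/`ZMod.natCast_zmod_val`, e.g. via `Fin.sum_univ_eq_sum_range` for `M = n+1`: `cases M`), and `x ↦ t + x u` is a bijection of `ZMod M` (`u` a unit: `ZMod.unitOfCoprime`/`isUnit_iff_coprime`; `Equiv.sum_comp`).
* `Yf_congr`: termwise `Zf_congr`.
* `Yf_slash`: `γ = [[α,β],[c,δ]]`, `M ∣ c` (`Gamma0_mem`), `α δ ≡ 1 (M)` (`det`), `![a,b] ᵥ* γ = ![a α + b c, a β + b δ] ≡ ![a α, a β + b δ]`; `Zf_slash`, `Zf_congr`, then `sum_Zf_reindex` with `t = a β`, `u = δ`.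
  (`SlashAction.sum_slash`? otherwise prove pointwise with `Zf_smul` and `Finset.mul_sum`; `Yf M a = ∑ b ∈ range M, Zf M ![a,b]` as functions: `funext; simp [Yf]`.)  `M ∤ a α` since `α` is a unit mod `M`.
* `mdiff_Yf`: finite sum of `mdiff_Zf` (`MDifferentiable.sum`? or induction; or from `hasSum_Yf` + `mdiff_of_hasSum`).
* `bdd_Yf_slash`: `Yf M a ∣[1] g = ∑_b Zf M (![a,b] ᵥ* g)`, each bounded (`bdd_Zf (not_dvd_vecMul ..)`), finite sums of bounded functions are bounded (`Filter.BoundedAtFilter.add`, induction).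

## [key S48/Z-YB, ~300 lines] : the `q`-expansion   (`sum_ez`, `sum_zc`, `hasSum_Yf`)
* `sum_ez`: `∑_{b < M} ez M (k b) = if M ∣ k then M else 0` (geometric sum: `ez M (k b) = (ez M k)^b`, `(ez M k)^M = 1`, `ez M k = 1 ↔ M ∣ k` (`ez_eq_one_iff`), `geom_sum_eq`/`mul_geom_sum`).
* `sum_zc`: `∑_{b<M} zc M ![a,b] n' = if M ∣ n' then yc M a (n'/M) else 0`.
  `n' = 0`: each `zc0 = 1/2 - (a % M)/M`, sum `= M/2 - a % M`.   `n' ≥ 1`: `∑_b ∑_{d ∣ n'} zcc M ![a,b] d (n'/d) = ∑_{d ∣ n'} ([M ∣ d-a] - [M ∣ d+a]) * (if M ∣ n'/d then M else 0)` (`Finset.sum_comm`, `sum_ez` for `k` and `-k`).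
  If `M ∤ n'` no `d ∣ n'` has `M ∣ n'/d`.   If `n' = M n`: `{d ∣ M n : M ∣ M n/d} = n.divisors` (`d (M k) = M n ↔ d k = n`): `Finset.sum_filter`, `Finset.sum_subset`/`sum_bij`.
* `hasSum_Yf`: `hasSum_sum` of `hasSum_Zf`: `HasSum (fun n' => (∑_b zc M ![a,b] n') • X^n') (Yf M a τ)`, `X = 𝕢 M τ`, `X^(M n) = (𝕢 1 τ)^n` ; the coefficients vanish off the multiples of `M`:
  `Function.Injective.hasSum_iff` for `n ↦ M * n` (as in `S24.hasSum_scale`, `Fermat/Agent/S24/QExp.lean`).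
-/

set_option autoImplicit false

open UpperHalfPlane hiding I
open Complex ModularForm CongruenceSubgroup Matrix Fermat.Agent.S24 Fermat.Agent.S29
open scoped Real Topology MatrixGroups Manifold

noncomputable section

namespace Fermat.Agent.S48.Z

local notation "𝕢" => Function.Periodic.qParam

variable {M : ℕ} [NeZero M] {a : ℤ}

section YB

theorem ybAux_ez_mul (M : ℕ) (k : ℤ) (b : ℕ) : ez M (k * (b : ℤ)) = ez M k ^ b := by
  unfold ez
  rw [← Complex.exp_nat_mul]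
  congr 1
  push_cast
  ring

theorem sum_ez (M : ℕ) [NeZero M] (k : ℤ) :
    ∑ b ∈ Finset.range M, ez M (k * (b : ℤ)) = if (M : ℤ) ∣ k then (M : ℂ) else 0 := by
  simp only [ybAux_ez_mul]
  split_ifs with h
  · rw [ez_eq_one_iff.2 h]
    simp
  · have h1 : ez M k ≠ 1 := fun h' => h (ez_eq_one_iff.1 h')
    have h2 : ez M k ^ M = 1 := by
      rw [← ybAux_ez_mul, ez_eq_one_iff]
      exact Dvd.intro_left k rfl
    rw [geom_sum_eq h1, h2, sub_self, zero_div]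

theorem ybAux_sum_zcc (M : ℕ) [NeZero M] (a : ℤ) (d k : ℕ) :
    ∑ b ∈ Finset.range M, zcc M ![a, (b : ℤ)] d k =
      (hh M a d : ℂ) * (if M ∣ k then (M : ℂ) else 0) := by
  have h1 : ∀ b : ℕ, zcc M ![a, (b : ℤ)] d k =
      (if (M : ℤ) ∣ (d : ℤ) - a then ez M ((k : ℤ) * (b : ℤ)) else 0) -
        (if (M : ℤ) ∣ (d : ℤ) + a then ez M ((-(k : ℤ)) * (b : ℤ)) else 0) := by
    intro b
    simp only [neg_mul]
    rfl
  simp only [h1, Finset.sum_sub_distrib]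
  have h2 : ∀ (P : Prop) [Decidable P] (j : ℤ),
      ∑ b ∈ Finset.range M, (if P then ez M (j * (b : ℤ)) else 0) =
        if P then (if (M : ℤ) ∣ j then (M : ℂ) else 0) else 0 := by
    intro P _ j
    split_ifs with hP h
    · rw [sum_ez, if_pos h]
    · rw [sum_ez, if_neg h]
    · simp
  rw [h2, h2]
  have h3 : ((M : ℤ) ∣ -(k : ℤ)) ↔ M ∣ k := by rw [dvd_neg, Int.natCast_dvd_natCast]
  have h4 : ((M : ℤ) ∣ (k : ℤ)) ↔ M ∣ k := Int.natCast_dvd_natCast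
  simp only [h3, h4, hh]
  by_cases hk : M ∣ k <;> by_cases hd1 : (M : ℤ) ∣ (d : ℤ) - a <;>
    by_cases hd2 : (M : ℤ) ∣ (d : ℤ) + a <;> simp [hk, hd1, hd2]

theorem ybAux_filter_divisors {M n : ℕ} (hM : 0 < M) (hn : M ∣ n) :
    n.divisors.filter (fun d => M ∣ n / d) = (n / M).divisors := by
  obtain ⟨n₁, rfl⟩ := hn
  rw [Nat.mul_div_cancel_left _ hM]
  ext d
  simp only [Finset.mem_filter, Nat.mem_divisors]
  constructor
  · rintro ⟨⟨hd, hne⟩, k, hk⟩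
    have hn₁ : n₁ ≠ 0 := fun h => hne (by rw [h, mul_zero])
    refine ⟨⟨k, ?_⟩, hn₁⟩
    have h1 : M * n₁ = d * (M * k) := by rw [← hk, Nat.mul_div_cancel' hd]
    have h2 : M * n₁ = M * (d * k) := by rw [h1]; ring
    exact Nat.eq_of_mul_eq_mul_left hM h2
  · rintro ⟨⟨k, rfl⟩, hne⟩
    have hd0 : 0 < d := Nat.pos_of_ne_zero fun h => hne (by rw [h, zero_mul])
    refine ⟨⟨⟨M * k, by ring⟩, mul_ne_zero hM.ne' hne⟩, k, ?_⟩
    rw [show M * (d * k) = d * (M * k) by ring, Nat.mul_div_cancel_left _ hd0]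

theorem sum_zc (ha : ¬ (M : ℤ) ∣ a) (n : ℕ) :
    ∑ b ∈ Finset.range M, zc M ![a, (b : ℤ)] n = if M ∣ n then yc M a (n / M) else 0 := by
  have hM : 0 < M := Nat.pos_of_ne_zero (NeZero.ne M)
  have hMC : (M : ℂ) ≠ 0 := Nat.cast_ne_zero.2 hM.ne'
  rcases Nat.eq_zero_or_pos n with rfl | hn
  · have hz0 : ∀ b : ℕ, zc M ![a, (b : ℤ)] 0 = 1 / 2 - ((a % (M : ℤ) : ℤ) : ℂ) / M := fun b => by
      rw [zc, if_pos rfl, zc0, if_neg (show ¬ (M : ℤ) ∣ (![a, (b : ℤ)] : Fin 2 → ℤ) 0 from ha)]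
      rfl
    simp only [hz0, Finset.sum_const, Finset.card_range, nsmul_eq_mul]
    rw [if_pos (dvd_zero M), Nat.zero_div, yc, if_pos rfl]
    field_simp
  · simp only [zc, if_neg hn.ne']
    rw [Finset.sum_comm]
    simp only [ybAux_sum_zcc]
    split_ifs with h
    · have hn1 : n / M ≠ 0 := by
        obtain ⟨n₁, rfl⟩ := h
        rw [Nat.mul_div_cancel_left _ hM]
        rintro rfl
        simp at hn
      rw [yc, if_neg hn1, ← ybAux_filter_divisors hM h, Finset.sum_filter]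
      push_cast
      rw [Finset.mul_sum]
      refine Finset.sum_congr rfl fun d _ => ?_
      split_ifs <;> simp [mul_comm]
    · refine Finset.sum_eq_zero fun d hd => ?_
      have hd' := (Nat.mem_divisors.1 hd).1
      rw [if_neg, mul_zero]
      intro h'
      exact h (h'.trans (Nat.div_dvd_of_dvd hd'))

theorem ybAux_qParam_pow (M : ℕ) [NeZero M] (z : ℂ) : 𝕢 (M : ℝ) z ^ M = 𝕢 (1 : ℝ) z := by
  have hMC : (M : ℂ) ≠ 0 := Nat.cast_ne_zero.2 (NeZero.ne M)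
  unfold Function.Periodic.qParam
  rw [← Complex.exp_nat_mul]
  congr 1
  push_cast
  field_simp

theorem hasSum_Yf (ha : ¬ (M : ℤ) ∣ a) (τ : ℍ) :
    HasSum (fun n : ℕ => yc M a n • 𝕢 (1 : ℝ) (τ : ℂ) ^ n) (Yf M a τ) := by
  have hM : 0 < M := Nat.pos_of_ne_zero (NeZero.ne M)
  have hv : ∀ b : ℕ, ¬ ∀ i, (M : ℤ) ∣ (![a, (b : ℤ)] : Fin 2 → ℤ) i := fun b h => ha (h 0)
  have h1 : HasSum (fun n : ℕ => ∑ b ∈ Finset.range M, zc M ![a, (b : ℤ)] n • 𝕢 (M : ℝ) (τ : ℂ) ^ n)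
      (Yf M a τ) := hasSum_sum fun b _ => hasSum_Zf (hv b) τ
  simp only [← Finset.sum_smul, sum_zc ha] at h1
  have hinj : Function.Injective (fun n : ℕ => M * n) := fun x y h =>
    Nat.eq_of_mul_eq_mul_left hM h
  rw [← hinj.hasSum_iff] at h1
  · convert h1 using 2 with n
    simp only [Function.comp, Nat.mul_div_cancel_left _ hM, pow_mul, ybAux_qParam_pow]
    rw [if_pos (Dvd.intro _ rfl)]
  · intro n hn
    rw [if_neg, zero_smul]
    rintro ⟨k, rfl⟩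
    exact hn ⟨k, rfl⟩

end YB

section YA

theorem yaAux_sum_range {X : Type*} [AddCommMonoid X] (M : ℕ) [NeZero M] (G : ZMod M → X) :
    ∑ b ∈ Finset.range M, G (b : ZMod M) = ∑ x : ZMod M, G x := by
  refine Finset.sum_nbij' (fun b => (b : ZMod M)) (fun x => x.val) (fun _ _ => Finset.mem_univ _)
    (fun x _ => Finset.mem_range.2 (ZMod.val_lt x))
    (fun b hb => ZMod.val_natCast_of_lt (Finset.mem_range.1 hb))
    (fun x _ => ZMod.natCast_zmod_val x) (fun _ _ => rfl)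

theorem yaAux_Zf_eq (ha : ¬ (M : ℤ) ∣ a) (x : ℤ) :
    Zf M ![a, x] = Zf M ![a, (((x : ZMod M).val : ℕ) : ℤ)] := by
  refine Zf_congr (fun i => ?_) (fun h => ha (h 0))
  fin_cases i
  · simp
  · show (M : ℤ) ∣ x - (((x : ZMod M).val : ℕ) : ℤ)
    rw [← ZMod.intCast_eq_intCast_iff_dvd_sub]
    simp

theorem yaAux_isUnit {u : ℤ} (hu : IsCoprime u (M : ℤ)) : IsUnit (u : ZMod M) := by
  obtain ⟨r, s, h⟩ := hu
  have h1 : ((r * u + s * M : ℤ) : ZMod M) = 1 := by rw [h]; simp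
  push_cast at h1
  rw [ZMod.natCast_self, mul_zero, add_zero] at h1
  exact IsUnit.of_mul_eq_one _ (by rw [mul_comm]; exact h1)

theorem sum_Zf_reindex (ha : ¬ (M : ℤ) ∣ a) (t u : ℤ) (hu : IsCoprime u (M : ℤ)) :
    ∑ b ∈ Finset.range M, Zf M ![a, t + (b : ℤ) * u] = ∑ b ∈ Finset.range M, Zf M ![a, (b : ℤ)] := by
  let F : ZMod M → (ℍ → ℂ) := fun x => Zf M ![a, ((x.val : ℕ) : ℤ)]
  have h1 : ∀ b : ℕ, Zf M ![a, t + (b : ℤ) * u] = F ((t : ZMod M) + (b : ZMod M) * (u : ZMod M)) := by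
    intro b
    rw [yaAux_Zf_eq ha]
    simp only [F]
    push_cast
    rfl
  have h2 : ∀ b : ℕ, Zf M ![a, (b : ℤ)] = F (b : ZMod M) := by
    intro b
    rw [yaAux_Zf_eq ha]
    simp only [F]
    push_cast
    rfl
  simp only [h1, h2]
  rw [yaAux_sum_range M (fun x => F ((t : ZMod M) + x * (u : ZMod M))), yaAux_sum_range M F]
  refine Function.Bijective.sum_comp (Finite.injective_iff_bijective.1 ?_) F
  intro x y hxy
  exact (yaAux_isUnit hu).mul_right_cancel (add_left_cancel hxy)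

theorem Yf_congr {a' : ℤ} (h : (M : ℤ) ∣ a - a') (ha : ¬ (M : ℤ) ∣ a) : Yf M a = Yf M a' := by
  funext τ
  unfold Yf
  refine Finset.sum_congr rfl fun b _ => congrFun (Zf_congr (fun i => ?_) (fun h' => ha (h' 0))) τ
  fin_cases i
  · exact h
  · simp

theorem yaAux_slash (a : ℤ) (g : SL(2, ℤ)) :
    Yf M a ∣[(1 : ℤ)] g =
      ∑ b ∈ Finset.range M, Zf M (![a, (b : ℤ)] ᵥ* (g : Matrix (Fin 2) (Fin 2) ℤ)) := by
  funext τ
  rw [SL_slash_apply, Finset.sum_apply]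
  unfold Yf
  simp only [Zf_smul]
  rw [← Finset.mul_sum, _root_.zpow_neg_one, mul_comm, ← mul_assoc,
    inv_mul_cancel₀ (denom_ne_zero _ τ), one_mul]

theorem Yf_slash (ha : ¬ (M : ℤ) ∣ a) (γ : SL(2, ℤ)) (hγ : γ ∈ Gamma0 M) :
    Yf M a ∣[(1 : ℤ)] γ = Yf M (a * γ 0 0) := by
  have hc : (M : ℤ) ∣ γ 1 0 := by
    rw [Gamma0_mem] at hγ
    exact (ZMod.intCast_zmod_eq_zero_iff_dvd _ _).1 hγ
  have hdet : γ 0 0 * γ 1 1 - γ 0 1 * γ 1 0 = 1 := by
    have := γ.2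
    rwa [Matrix.det_fin_two] at this
  obtain ⟨c', hc'⟩ := hc
  have hδ : IsCoprime (γ 1 1) (M : ℤ) := ⟨γ 0 0, -(γ 0 1 * c'), by linear_combination hdet + γ 0 1 * hc'⟩
  have ha' : ¬ (M : ℤ) ∣ a * γ 0 0 := by
    intro h
    apply ha
    have e : a = a * γ 0 0 * γ 1 1 - (M : ℤ) * (a * γ 0 1 * c') := by
      linear_combination (-a) * hdet - a * γ 0 1 * hc'
    rw [e]
    exact dvd_sub (h.mul_right _) (dvd_mul_right _ _)
  rw [yaAux_slash]
  have h1 : ∀ b : ℕ, Zf M (![a, (b : ℤ)] ᵥ* (γ : Matrix (Fin 2) (Fin 2) ℤ)) =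
      Zf M ![a * γ 0 0, a * γ 0 1 + (b : ℤ) * γ 1 1] := by
    intro b
    refine Zf_congr (fun i => ?_) (not_dvd_vecMul (fun h => ha (h 0)) γ)
    fin_cases i
    · simp only [Matrix.vecMul, dotProduct, Fin.sum_univ_two]
      show (M : ℤ) ∣ a * γ 0 0 + (b : ℤ) * γ 1 0 - a * γ 0 0
      rw [add_sub_cancel_left, hc']
      exact ⟨b * c', by ring⟩
    · simp only [Matrix.vecMul, dotProduct, Fin.sum_univ_two]
      show (M : ℤ) ∣ a * γ 0 1 + (b : ℤ) * γ 1 1 - (a * γ 0 1 + (b : ℤ) * γ 1 1)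
      rw [sub_self]
      exact dvd_zero _
  simp only [h1]
  rw [sum_Zf_reindex ha' _ _ hδ]
  funext τ
  rw [Finset.sum_apply]
  rfl

theorem mdiff_Yf (ha : ¬ (M : ℤ) ∣ a) : MDiff (Yf M a) :=
  mdiff_of_hasSum one_pos (hasSum_Yf ha)

theorem yaAux_bdd_sum {ι : Type*} (s : Finset ι) (f : ι → ℍ → ℂ)
    (h : ∀ i ∈ s, IsBoundedAtImInfty (f i)) : IsBoundedAtImInfty (∑ i ∈ s, f i) := by
  classical
  induction s using Finset.induction_on with
  | empty =>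
    rw [Finset.sum_empty]
    exact Filter.const_boundedAtFilter _ (0 : ℂ)
  | insert i s hi ih =>
    rw [Finset.sum_insert hi]
    exact (h i (Finset.mem_insert_self i s)).add (ih fun j hj => h j (Finset.mem_insert_of_mem hj))

theorem bdd_Yf_slash (ha : ¬ (M : ℤ) ∣ a) (g : SL(2, ℤ)) :
    IsBoundedAtImInfty (Yf M a ∣[(1 : ℤ)] g) := by
  rw [yaAux_slash]
  exact yaAux_bdd_sum _ _ fun b _ => bdd_Zf (not_dvd_vecMul (fun h => ha (h 0)) g)

end YA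

end Fermat.Agent.S48.Z
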